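/-
MLT (project S59) / stream [R] = Res (lead): **the residual representation of a general integral
Weierstrass model `W / ℤ`**.

* `mltrE W p hΔ : ResidualGaloisRep (ZMod p)` : `W[p]` (Prelude's `residualGaloisRepOf`);
* `mltrRep W p hΔ k := (mltrE W p hΔ).baseChange k`;
* `mltrE_isIrreducible` : `W.ModRepIsIrreducible p → (mltrE W p hΔ).IsIrreducible`.
-/
import Mathlib
import Fermat.Agent.Lib.S58.Match

set_option autoImplicit false
set_option linter.unusedSectionVars false

open WeierstrassCurve WeierstrassCurve.Affine.Point Fermat.Agent.S58 Fermat.Agent.LR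
open scoped WeierstrassCurve.Affine

namespace Fermat.Agent.MLT

local notation "Qb" => AlgebraicClosure ℚ
local notation "GQ" => (AlgebraicClosure ℚ ≃ₐ[ℚ] AlgebraicClosure ℚ)

noncomputable section

variable (W : WeierstrassCurve ℤ) (p : ℕ) [Fact p.Prime]

/-- `#W[p] = p²` in the Prelude's form -/
theorem mltr_card (hΔ : W.Δ ≠ 0) : Nat.card (S58Tors W p) = p ^ 2 :=
  lre_natCard_torsionBy (s58E W) (s58m_Δ_ne_zero W hΔ) (Fact.out (p := p.Prime)).pos

/-- the Galois action on `W[p]` has finite level -/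
theorem mltr_level (hΔ : W.Δ ≠ 0) : GaloisFactorsThroughFiniteLevel (s58Gal W p) :=
  s58m_level W hΔ (Fact.out (p := p.Prime)).pos

/-- **the mod `p` representation of `W`** over `𝔽_p` -/
def mltrE (hΔ : W.Δ ≠ 0) : ResidualGaloisRep (ZMod p) :=
  (s58E W).residualGaloisRepOf p (mltr_card W p hΔ) (mltr_level W p hΔ)

lemma mltrE_ρ_apply (hΔ : W.Δ ≠ 0) (σ : GQ) (x : S58Tors W p) : (mltrE W p hΔ).ρ σ x = σ • x := rfl

lemma mltrE_ρ_eq (hΔ : W.Δ ≠ 0) (σ : GQ) : (mltrE W p hΔ).ρ σ = s58Gal W p σ := rfl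

/-- irreducibility in the Prelude's form is irreducibility of `mltrE` -/
theorem mltrE_isIrreducible (hΔ : W.Δ ≠ 0) (hirr : W.ModRepIsIrreducible p) : (mltrE W p hΔ).IsIrreducible :=
  fun V hV => hirr.2 V (fun σ x hx => hV σ x hx)

variable (k : Type) [Field k] [Algebra (ZMod p) k]

/-- the mod `p` representation of `W` with coefficients in `k` -/
def mltrRep (hΔ : W.Δ ≠ 0) : ResidualGaloisRep k := (mltrE W p hΔ).baseChange k

/-- `2 ≠ 0` in `𝔽_p`, `p` odd -/
lemma mltr_two_ne_zero (hp2 : p ≠ 2) : (2 : ZMod p) ≠ 0 := by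
  intro h
  have h' : ((2 : ℕ) : ZMod p) = 0 := by exact_mod_cast h
  rw [ZMod.natCast_eq_zero_iff] at h'
  have hp : p.Prime := Fact.out
  have := (Nat.prime_dvd_prime_iff_eq hp Nat.prime_two).mp h'
  exact hp2 this

end

end Fermat.Agent.MLT
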