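/-
MLT (project S59) / stream [R] = Res (lead): Frobenius elements, determinant and ramification of the
residual representation `W[p]` of a general integral model `W / ℤ`.

* `mltr_trace_det_frob`, `mltr_charpoly_frob_E`, `mltr_charpoly_frob` : Frobenius at a good `ℓ ≠ p`;
* `mltr_det_nat`, `mltr_hdet` : `det = ` cyclotomic character;
* `mltr_fix_of_good`, `mltr_unramified_of_good` : unramified at the good primes `q ≠ p`;
* `mltr_dvd_of_ramified` : ramified at `q ≠ p` ⇒ `q ∣ Δ`;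
* `mltr_det_inertia`, `mltr_unipotent_E`, `mltr_unipotent` : unipotent inertia at semistable `q ≠ p`;
* `mltr_exists_transvection` : a transvection in the image if `W[p]` is ramified at some
  semistable `q ≠ p`.
-/
import Mathlib
import Fermat.Agent.Lib.S58.ET
import Fermat.Agent.Lib.S58.Det
import Fermat.Agent.Lib.S58.LocalFinal
import Fermat.Agent.Lib.Ihara.Rb.Gen
import Fermat.Agent.Lib.MLT.Res.Defs

set_option autoImplicit false
set_option linter.unusedSectionVars false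
set_option linter.unusedVariables false
set_option linter.style.haveILetI false

open Polynomial WeierstrassCurve WeierstrassCurve.Affine.Point Fermat.Agent.S58 Fermat.Agent.LR
open Fermat.Agent.Ihara
open scoped WeierstrassCurve.Affine

namespace Fermat.Agent.MLT

local notation "Qb" => AlgebraicClosure ℚ
local notation "GQ" => (AlgebraicClosure ℚ ≃ₐ[ℚ] AlgebraicClosure ℚ)

noncomputable section

/-- the characteristic polynomial of an endomorphism of a plane -/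
theorem mltr_charpoly_eq {F V : Type*} [Field F] [AddCommGroup V] [Module F V]
    [Module.Finite F V] (hV : Module.finrank F V = 2) (f : Module.End F V) :
    LinearMap.charpoly f = X ^ 2 - C (LinearMap.trace F V f) * X + C (LinearMap.det f) := by
  classical
  let bV : Module.Basis (Fin 2) F V := Module.finBasisOfFinrankEq F V hV
  rw [← LinearMap.charpoly_toMatrix f bV, Matrix.charpoly_fin_two,
    LinearMap.trace_eq_matrix_trace F bV f, ← LinearMap.det_toMatrix bV f]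

variable (W : WeierstrassCurve ℤ) (p : ℕ) [Fact p.Prime]

/-- **Frobenius on `W[p]`**: trace `a_ℓ(W)`, determinant `ℓ` -/
theorem mltr_trace_det_frob (hΔ : W.Δ ≠ 0) {ℓ : ℕ} (hℓ : ℓ.Prime) (hgood : ¬ (ℓ : ℤ) ∣ W.Δ)
    (hℓp : ℓ ≠ p) (A : ValuationSubring Qb) (hA : A.LiesOverPrime ℓ) (σ : GQ)
    (hσ : A.IsFrobeniusAt σ ℓ) :
    LinearMap.trace (ZMod p) (mltrE W p hΔ).V ((mltrE W p hΔ).ρ σ) =
        ((W.apOfModel ℓ : ℤ) : ZMod p) ∧
      LinearMap.det ((mltrE W p hΔ).ρ σ) = ((ℓ : ℕ) : ZMod p) := by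
  have hp : p.Prime := Fact.out
  exact s58_et W hΔ ℓ p 1 p hℓ hgood hp (Ne.symm hℓp) (pow_one _).symm A hA σ hσ

/-- **Frobenius characteristic polynomials of `W[p]`** -/
theorem mltr_charpoly_frob_E (hΔ : W.Δ ≠ 0) {ℓ : ℕ} (hℓ : ℓ.Prime) (hgood : ¬ (ℓ : ℤ) ∣ W.Δ)
    (hℓp : ℓ ≠ p) (A : ValuationSubring Qb) (hA : A.LiesOverPrime ℓ) (σ : GQ)
    (hσ : A.IsFrobeniusAt σ ℓ) :
    LinearMap.charpoly ((mltrE W p hΔ).ρ σ) =
      X ^ 2 - C (((W.apOfModel ℓ : ℤ) : ZMod p)) * X + C (((ℓ : ℕ) : ZMod p)) := by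
  obtain ⟨h1, h2⟩ := mltr_trace_det_frob W p hΔ hℓ hgood hℓp A hA σ hσ
  rw [mltr_charpoly_eq (mltrE W p hΔ).finrank_eq, h1, h2]

variable (k : Type) [Field k] [Algebra (ZMod p) k]

/-- **Frobenius characteristic polynomials of `mltrRep W p hΔ k`** -/
theorem mltr_charpoly_frob (hΔ : W.Δ ≠ 0) {ℓ : ℕ} (hℓ : ℓ.Prime) (hgood : ¬ (ℓ : ℤ) ∣ W.Δ)
    (hℓp : ℓ ≠ p) (A : ValuationSubring Qb) (hA : A.LiesOverPrime ℓ) (σ : GQ)
    (hσ : A.IsFrobeniusAt σ ℓ) :
    LinearMap.charpoly ((mltrRep W p k hΔ).ρ σ) =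
      X ^ 2 - C (((W.apOfModel ℓ : ℤ) : k)) * X + C (((ℓ : ℕ) : k)) := by
  have h1 := mltr_charpoly_frob_E W p hΔ hℓ hgood hℓp A hA σ hσ
  have h2 : LinearMap.charpoly ((mltrRep W p k hΔ).ρ σ) =
      (LinearMap.charpoly ((mltrE W p hΔ).ρ σ)).map (algebraMap (ZMod p) k) :=
    LinearMap.charpoly_baseChange ((mltrE W p hΔ).ρ σ) k
  rw [h2, h1, Polynomial.map_add, Polynomial.map_sub, Polynomial.map_mul, Polynomial.map_pow,
    Polynomial.map_X, Polynomial.map_C, Polynomial.map_C, map_intCast, map_natCast]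

/-- `p = 0` in `k` -/
lemma mltr_p_eq_zero : (p : k) = 0 := by
  have h : ((p : ZMod p) : ZMod p) = 0 := ZMod.natCast_self p
  have := congrArg (algebraMap (ZMod p) k) h
  rwa [map_natCast, _root_.map_zero] at this

/-- the determinant on `W[p]`, in terms of the action on `μ_p` -/
theorem mltr_det_nat (hΔ : W.Δ ≠ 0) (σ : GQ) (a : ℕ)
    (ha : ∀ μ : Qb, μ ^ p = 1 → σ μ = μ ^ a) :
    LinearMap.det ((mltrE W p hΔ).ρ σ) = ((a : ℕ) : ZMod p) := by
  have hp : p.Prime := Fact.out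
  haveI : NeZero p := ⟨hp.ne_zero⟩
  obtain ⟨d, hdn, hd⟩ := s58d_exists_det W hp.pos σ
  have hcyc := s58d_det_cyclo W hΔ (s58_et W hΔ) hp (pow_one p).symm σ d hd
  obtain ⟨ζ, hζ⟩ := HasEnoughRootsOfUnity.exists_primitiveRoot Qb p
  have hζp : ζ ^ p = 1 := hζ.pow_eq_one
  have h3 : ζ ^ a = ζ ^ d := by rw [← ha ζ hζp, hcyc ζ hζp]
  have h4 : a ≡ d [MOD p] := by
    set u : Qbˣ := Units.ofPowEqOne ζ p hζp hp.ne_zero with hu
    have huz : (u : Qb) = ζ := Units.val_ofPowEqOne _ _ _ _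
    have h3u : u ^ a = u ^ d := by
      apply Units.ext
      rw [Units.val_pow_eq_pow_val, Units.val_pow_eq_pow_val, huz]
      exact h3
    have := pow_eq_pow_iff_modEq.1 h3u
    rwa [← orderOf_units, huz, ← hζ.eq_orderOf] at this
  have h5 : ((a : ℕ) : ZMod p) = ((d : ℕ) : ZMod p) := (ZMod.natCast_eq_natCast_iff _ _ _).2 h4
  rw [h5]
  exact hd

/-- **`hdet`** -/
theorem mltr_hdet (hΔ : W.Δ ≠ 0) :
    (GaloisRepAdic.ofResidualGaloisRep (mltrRep W p k hΔ)).DetIsCyclotomic p := by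
  have hp : p.Prime := Fact.out
  refine ⟨?_, ?_⟩
  · rw [mltr_p_eq_zero]
    exact Submodule.zero_mem _
  · intro n σ a ha
    rcases Nat.eq_zero_or_pos n with rfl | hn
    · rw [pow_zero, Nat.cast_one, Ideal.span_singleton_one]
      exact Submodule.mem_top
    · have hp0 : ((p ^ n : ℕ) : k) = 0 := by
        push_cast
        rw [mltr_p_eq_zero, zero_pow hn.ne']
      rw [hp0, Ideal.span_singleton_zero, Ideal.mem_bot, sub_eq_zero]
      have ha' : ∀ μ : Qb, μ ^ p = 1 → σ μ = μ ^ a := by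
        intro μ hμ
        apply ha
        obtain ⟨m, rfl⟩ : ∃ m, n = m + 1 := ⟨n - 1, by omega⟩
        rw [pow_succ', pow_mul, hμ, one_pow]
      have h6 : LinearMap.det ((mltrRep W p k hΔ).ρ σ) =
          algebraMap (ZMod p) k (LinearMap.det ((mltrE W p hΔ).ρ σ)) :=
        LinearMap.det_baseChange ((mltrE W p hΔ).ρ σ)
      show LinearMap.det ((mltrRep W p k hΔ).ρ σ) = (a : k)
      rw [h6, mltr_det_nat W p hΔ σ a ha', map_natCast]

/-- inertia at a good prime `q ≠ p` fixes `W[p]` pointwise -/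
theorem mltr_fix_of_good (hΔ : W.Δ ≠ 0) {q : ℕ} (hq : q.Prime) (hqp : q ≠ p)
    (hgood : ¬ (q : ℤ) ∣ W.Δ) (A : ValuationSubring Qb) (hA : A.LiesOverPrime q) (σ : GQ)
    (hσ : σ ∈ A.inertiaSubgroupIn ℚ) : (mltrE W p hΔ).ρ σ = 1 := by
  have hp : p.Prime := Fact.out
  have hqp' : ¬ q ∣ p := fun h => hqp ((Nat.prime_dvd_prime_iff_eq hq hp).mp h)
  apply LinearMap.ext
  intro (Q : S58Tors W p)
  rw [Module.End.one_apply]
  have hall : Q ∈ s58lT0 W p A := by
    show S58lNs A ((s58E W)⁄Qb) (Q : ((s58E W)⁄Qb).Point)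
    have hQ := s58l_nsmul_eq_zero W Q
    generalize (Q : ((s58E W)⁄Qb).Point) = Q' at hQ ⊢
    rcases Q' with _ | ⟨x, y, h⟩
    · trivial
    · obtain ⟨hx, hy⟩ := s58l_integral W hΔ hq hqp' A hA h hQ
      obtain ⟨ha₁, ha₂, ha₃, ha₄, ha₆⟩ := s58l_a_mem W A
      have hΔ1 : A.valuation ((s58E W)⁄Qb).Δ = 1 := by
        rw [s58l_Δ_eq]
        exact Fermat.Agent.S05Lib.qv_valuation_intCast_eq_one A hq hA hgood
      exact s58l_ns_of_good ha₁ ha₂ ha₃ ha₄ hΔ1 h.1 hx hy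
  exact s58lT0_fixed W hΔ hq hqp' A hA hσ hall

/-- **unramified at the good primes `q ≠ p`** -/
theorem mltr_unramified_of_good (hΔ : W.Δ ≠ 0) {q : ℕ} (hq : q.Prime) (hqp : q ≠ p)
    (hgood : ¬ (q : ℤ) ∣ W.Δ) : (mltrRep W p k hΔ).IsUnramifiedAt q := by
  intro A hA σ hσ
  have h1 := mltr_fix_of_good W p hΔ hq hqp hgood A hA σ hσ
  show ((mltrE W p hΔ).ρ σ).baseChange k = 1
  rw [h1]
  exact LinearMap.baseChange_one _ _

/-- ramified at `q ≠ p` ⇒ `q` is a bad prime -/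
theorem mltr_dvd_of_ramified (hΔ : W.Δ ≠ 0) {q : ℕ} (hq : q.Prime) (hqp : q ≠ p)
    (hram : ¬ (mltrRep W p k hΔ).IsUnramifiedAt q) : (q : ℤ) ∣ W.Δ := by
  by_contra h
  exact hram (mltr_unramified_of_good W p k hΔ hq hqp h)

end

end Fermat.Agent.MLT

namespace Fermat.Agent.MLT

local notation "Qb" => AlgebraicClosure ℚ
local notation "GQ" => (AlgebraicClosure ℚ ≃ₐ[ℚ] AlgebraicClosure ℚ)

noncomputable section

/-- an endomorphism of a plane with determinant `1` and a nonzero fixed vector is unipotent -/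
theorem mltr_unip_of_fixed {F V : Type*} [Field F] [AddCommGroup V] [Module F V]
    [Module.Finite F V] (hV : Module.finrank F V = 2) (f : Module.End F V)
    (hdet : LinearMap.det f = 1) {v : V} (hv0 : v ≠ 0) (hv : f v = v) :
    LinearMap.charpoly f = (X - 1) ^ 2 ∧ (f - 1) * (f - 1) = 0 := by
  have hcp := mltr_charpoly_eq hV f
  have hroot : (LinearMap.charpoly f).IsRoot 1 := by
    rw [← Module.End.hasEigenvalue_iff_isRoot_charpoly]
    refine Module.End.hasEigenvalue_of_hasEigenvector (x := v) ⟨?_, hv0⟩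
    rw [Module.End.mem_eigenspace_iff, hv, one_smul]
  rw [hcp, hdet] at hroot
  have htr : LinearMap.trace F V f = 2 := by
    have h := hroot
    simp only [IsRoot.def, eval_add, eval_sub, eval_pow, eval_X, eval_mul, eval_C, one_pow,
      mul_one, map_one, eval_one] at h
    linear_combination -h
  have hcp2 : LinearMap.charpoly f = (X - 1) ^ 2 := by
    rw [hcp, hdet, htr]
    simp only [map_ofNat, map_one]
    ring
  refine ⟨hcp2, ?_⟩
  have hCH := LinearMap.aeval_self_charpoly f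
  rw [hcp2] at hCH
  simp only [map_pow, map_sub, aeval_X, map_one] at hCH
  rw [pow_two] at hCH
  exact hCH

variable (W : WeierstrassCurve ℤ) (p : ℕ) [Fact p.Prime]

/-- inertia at `q ≠ p` acts with determinant `1` on `W[p]` -/
theorem mltr_det_inertia (hΔ : W.Δ ≠ 0) {q : ℕ} (hq : q.Prime) (hqp : q ≠ p)
    (A : ValuationSubring Qb) (hA : A.LiesOverPrime q) (σ : GQ)
    (hσ : σ ∈ A.inertiaSubgroupIn ℚ) : LinearMap.det ((mltrE W p hΔ).ρ σ) = 1 := by
  have hp : p.Prime := Fact.out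
  exact s58d_det_inertia W hΔ (s58_et W hΔ) hp (pow_one p).symm hq hqp A hA σ hσ

/-- **unipotent inertia at the semistable primes `q ≠ p`** (`p` odd), on `W[p]` -/
theorem mltr_unipotent_E (hΔ : W.Δ ≠ 0) (hp2 : p ≠ 2) {q : ℕ} (hq : q.Prime) (hqp : q ≠ p)
    (hss : (q : ℤ) ∣ W.Δ → ¬ (q : ℤ) ∣ W.c₄)
    (A : ValuationSubring Qb) (hA : A.LiesOverPrime q) (σ : GQ)
    (hσ : σ ∈ A.inertiaSubgroupIn ℚ) :
    LinearMap.charpoly ((mltrE W p hΔ).ρ σ) = (X - 1) ^ 2 ∧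
      ((mltrE W p hΔ).ρ σ - 1) * ((mltrE W p hΔ).ρ σ - 1) = 0 := by
  classical
  have hp : p.Prime := Fact.out
  have hqp' : ¬ q ∣ p := fun h => hqp ((Nat.prime_dvd_prime_iff_eq hq hp).mp h)
  have hodd : Odd p := hp.odd_of_ne_two hp2
  obtain ⟨T₀, hfin, hcard, hfix⟩ := s58l_fixed W hΔ hq hss hodd hqp' A hA
  -- a nonzero fixed point
  have h2 : 1 < T₀.ncard := lt_of_lt_of_le hp.one_lt hcard
  obtain ⟨Q, hQ, hQ0⟩ : ∃ Q ∈ T₀, Q ≠ 0 := by
    by_contra hcon
    push Not at hcon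
    have hsub : T₀ ⊆ {0} := fun Q hQ => hcon Q hQ
    have := Set.ncard_le_ncard hsub (Set.finite_singleton _)
    rw [Set.ncard_singleton] at this
    omega
  exact mltr_unip_of_fixed (mltrE W p hΔ).finrank_eq _
    (mltr_det_inertia W p hΔ hq hqp A hA σ hσ) hQ0 (hfix σ hσ Q hQ)

variable (k : Type) [Field k] [Algebra (ZMod p) k]

/-- **unipotent inertia at the semistable primes `q ≠ p`** (`p` odd), on `k ⊗ W[p]` -/
theorem mltr_unipotent (hΔ : W.Δ ≠ 0) (hp2 : p ≠ 2) {q : ℕ} (hq : q.Prime) (hqp : q ≠ p)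
    (hss : (q : ℤ) ∣ W.Δ → ¬ (q : ℤ) ∣ W.c₄) :
    (GaloisRepAdic.ofResidualGaloisRep (mltrRep W p k hΔ)).IsUnipotentOnInertiaAt q := by
  intro A hA σ hσ
  have h1 := (mltr_unipotent_E W p hΔ hp2 hq hqp hss A hA σ hσ).1
  have h2 : LinearMap.charpoly ((mltrRep W p k hΔ).ρ σ) =
      (LinearMap.charpoly ((mltrE W p hΔ).ρ σ)).map (algebraMap (ZMod p) k) :=
    LinearMap.charpoly_baseChange ((mltrE W p hΔ).ρ σ) k
  show LinearMap.charpoly ((mltrRep W p k hΔ).ρ σ) = (X - 1) ^ 2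
  rw [h2, h1, Polynomial.map_pow, Polynomial.map_sub, Polynomial.map_X, Polynomial.map_one]

/-- **a transvection in the image**, if `W[p]` is ramified at a semistable prime `q ≠ p` -/
theorem mltr_exists_transvection (hΔ : W.Δ ≠ 0) (hp2 : p ≠ 2) {q : ℕ} (hq : q.Prime)
    (hqp : q ≠ p) (hss : (q : ℤ) ∣ W.Δ → ¬ (q : ℤ) ∣ W.c₄)
    (hram : ¬ (mltrRep W p k hΔ).IsUnramifiedAt q) :
    ∃ σ : GQ, (mltrE W p hΔ).ρ σ ≠ 1 ∧
      ((mltrE W p hΔ).ρ σ - 1) * ((mltrE W p hΔ).ρ σ - 1) = 0 := by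
  unfold ResidualGaloisRep.IsUnramifiedAt at hram
  push Not at hram
  obtain ⟨A, hA, σ, hσ, hne⟩ := hram
  refine ⟨σ, ?_, (mltr_unipotent_E W p hΔ hp2 hq hqp hss A hA σ hσ).2⟩
  intro h1
  exact hne ((ihr_baseChange_ρ_eq_one_iff (mltrE W p hΔ) k σ).2 h1)

end

end Fermat.Agent.MLT
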