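/-
MLT (project S59) / stream [R] = Res (lead): `habs`, `hsplit`, `hTW` (transvection case) and oddness
for the residual representation `k ⊗ W[p]` of a general integral model `W / ℤ`.

* `mltr_det_involution` : an involution `c ≠ 1` of `ℚ̄` has determinant `-1` on `W[p]`, `p` odd;
* `mltr_habs`   : `W[p]` irreducible, `p` odd ⇒ `k ⊗ W[p]` absolutely irreducible (via oddness);
* `mltr_hsplit` : the characteristic polynomials split in `k` if `𝔽_p ⊆ k²`;
* `mltr_hTW_of_transvection`, `mltr_hTW_of_ramified` : irreducibility of the restriction to every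
  subgroup of index `2`, when the image contains a transvection (e.g. `W[p]` ramified at some
  semistable prime `q ≠ p`).
-/
import Mathlib
import Fermat.Agent.Lib.S58.Residual
import Fermat.Agent.Lib.S58.DetInv
import Fermat.Agent.Lib.MLT.Res.Frob

set_option autoImplicit false
set_option linter.unusedSectionVars false
set_option linter.unusedVariables false
set_option linter.style.haveILetI false

open Polynomial WeierstrassCurve WeierstrassCurve.Affine.Point Fermat.Agent.S58 Fermat.Agent.LR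
open Fermat.Agent.Ihara
open scoped WeierstrassCurve.Affine TensorProduct

namespace Fermat.Agent.MLT

local notation "Qb" => AlgebraicClosure ℚ
local notation "GQ" => (AlgebraicClosure ℚ ≃ₐ[ℚ] AlgebraicClosure ℚ)

noncomputable section

variable (W : WeierstrassCurve ℤ) (p : ℕ) [Fact p.Prime]

/-- an involution `c ≠ 1` of `ℚ̄` acts with determinant `-1` on `W[p]`, `p` odd -/
theorem mltr_det_involution (hΔ : W.Δ ≠ 0) (hp2 : p ≠ 2) (c : GQ) (hc : c * c = 1) (hc1 : c ≠ 1) :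
    LinearMap.det ((mltrE W p hΔ).ρ c) = -1 :=
  s58d_det_involution W hΔ (s58_et W hΔ) (Fact.out (p := p.Prime)) hp2 c hc hc1

variable (k : Type) [Field k] [Algebra (ZMod p) k]

/-- **`habs`**: `W[p]` irreducible, `p` odd ⇒ `k ⊗ W[p]` is absolutely irreducible -/
theorem mltr_habs (hΔ : W.Δ ≠ 0) (hp2 : p ≠ 2) (hirr : W.ModRepIsIrreducible p) :
    (mltrRep W p k hΔ).IsAbsolutelyIrreducible := by
  obtain ⟨c, hc, hc1⟩ := s58d_exists_involution
  intro N hN
  refine s58r_irreducible_of_trace_det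
    ((algebraMap k (AlgebraicClosure k)).comp (algebraMap (ZMod p) k))
    (mltrE W p hΔ).finrank_eq
    ((mltrRep W p k hΔ).baseChange (AlgebraicClosure k)).finrank_eq (mltrE W p hΔ).ρ
    ((mltrRep W p k hΔ).baseChange (AlgebraicClosure k)).ρ
    ?_ ?_ (mltr_two_ne_zero p hp2) c hc (mltr_det_involution W p hΔ hp2 c hc hc1)
    (mltrE_isIrreducible W p hΔ hirr) N hN
  · intro σ
    show LinearMap.trace (AlgebraicClosure k)
      ((AlgebraicClosure k) ⊗[k] (k ⊗[ZMod p] (mltrE W p hΔ).V))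
      ((((mltrE W p hΔ).ρ σ).baseChange k).baseChange (AlgebraicClosure k)) = _
    rw [LinearMap.trace_baseChange, LinearMap.trace_baseChange]
    rfl
  · intro σ
    show LinearMap.det ((((mltrE W p hΔ).ρ σ).baseChange k).baseChange (AlgebraicClosure k)) = _
    rw [LinearMap.det_baseChange, LinearMap.det_baseChange]
    rfl

/-- **`hsplit`**, if `𝔽_p ⊆ k²` -/
theorem mltr_hsplit (hΔ : W.Δ ≠ 0) (hp2 : p ≠ 2)
    (hsq : ∀ a : ZMod p, IsSquare (algebraMap (ZMod p) k a)) (g : GQ) :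
    ∃ α β : k, LinearMap.charpoly ((mltrRep W p k hΔ).ρ g) = (X - C α) * (X - C β) :=
  ihr_hsplit_gen (mltrE W p hΔ) k (mltr_two_ne_zero p hp2) hsq g

/-- **`hTW`** when the image contains a transvection -/
theorem mltr_hTW_of_transvection (hΔ : W.Δ ≠ 0) (hp2 : p ≠ 2) (hirr : W.ModRepIsIrreducible p)
    {σ : GQ} (hσ1 : (mltrE W p hΔ).ρ σ ≠ 1)
    (hσ2 : ((mltrE W p hΔ).ρ σ - 1) * ((mltrE W p hΔ).ρ σ - 1) = 0) :
    ∀ (K : Type) [Field K] [Algebra k K] (G : Subgroup GQ), G.index = 2 →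
      ∀ V : Submodule K ((mltrRep W p k hΔ).baseChange K).V,
        (∀ s ∈ G, ∀ x ∈ V, ((mltrRep W p k hΔ).baseChange K).ρ s x ∈ V) → V = ⊥ ∨ V = ⊤ :=
  ihr_hTW_gen (mltrE W p hΔ) k (mltr_two_ne_zero p hp2) (mltrE_isIrreducible W p hΔ hirr) hσ1 hσ2

/-- **`hTW`** when `W[p]` is ramified at a semistable prime `q ≠ p` -/
theorem mltr_hTW_of_ramified (hΔ : W.Δ ≠ 0) (hp2 : p ≠ 2) (hirr : W.ModRepIsIrreducible p)
    {q : ℕ} (hq : q.Prime) (hqp : q ≠ p) (hss : (q : ℤ) ∣ W.Δ → ¬ (q : ℤ) ∣ W.c₄)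
    (hram : ¬ (mltrRep W p k hΔ).IsUnramifiedAt q) :
    ∀ (K : Type) [Field K] [Algebra k K] (G : Subgroup GQ), G.index = 2 →
      ∀ V : Submodule K ((mltrRep W p k hΔ).baseChange K).V,
        (∀ s ∈ G, ∀ x ∈ V, ((mltrRep W p k hΔ).baseChange K).ρ s x ∈ V) → V = ⊥ ∨ V = ⊤ := by
  obtain ⟨σ, hσ1, hσ2⟩ := mltr_exists_transvection W p k hΔ hp2 hq hqp hss hram
  exact mltr_hTW_of_transvection W p k hΔ hp2 hirr hσ1 hσ2

end

end Fermat.Agent.MLT
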