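/-
MLT (project S59) / stream [R] = Res (lead): **the congruence `a_ℓ(f) ≡ tr ρbar(Frob_ℓ) mod 𝔪` at EVERY
prime `ℓ ∤ N p`** and **`W[p]` is unramified outside `N p`** for a general integral model `W / ℤ` which
is residually modular of level `N` (generalisation of `Lib/Ihara/Rb/CongAll.lean` from the Frey curve).

* `mltrTr`, `mltr_det_frob`, `mltr_charpoly_frob_tr` : trace and determinant of Frobenius at every
  `ℓ ≠ p` (also at bad primes);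
* `mltr_exists_rep_f` : the residual representation of `f` over `κ = ℤ̄/𝔪` (S29) has the trace function of
  `κ ⊗ W[p]`;
* `mltr_cong_all` : the congruence at every prime `ℓ ∤ N p`;
* `mltr_unramified_of_not_dvd` : `W[p]` irreducible ⇒ unramified at every `ℓ ∤ N p`;
* `mltr_dvd_level_of_ramified` : a prime `q ≠ p` where `W[p]` is ramified divides every level.
-/
import Mathlib
import Fermat.Agent.S29
import Fermat.Agent.Lib.Helper6.FrobeniusExists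
import Fermat.Agent.Lib.Ihara.Dat.Resid
import Fermat.Agent.Lib.TW.TWPrimes.Cyclo
import Fermat.Agent.Lib.MLT.Res.Irr

set_option autoImplicit false
set_option linter.unusedSectionVars false
set_option linter.unusedVariables false
set_option linter.style.haveILetI false

open Polynomial CuspForm WeierstrassCurve WeierstrassCurve.Affine.Point Fermat.Agent.S58
open Fermat.Agent.Ihara Fermat.Agent.TW
open scoped WeierstrassCurve.Affine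

namespace Fermat.Agent.MLT

local notation "Qb" => AlgebraicClosure ℚ
local notation "GQ" => (AlgebraicClosure ℚ ≃ₐ[ℚ] AlgebraicClosure ℚ)

noncomputable section

variable (W : WeierstrassCurve ℤ) (p : ℕ) [Fact p.Prime]

/-- the trace of `σ` on `W[p]`, in `𝔽_p` -/
def mltrTr (hΔ : W.Δ ≠ 0) (σ : GQ) : ZMod p := ihdTr (mltrE W p hΔ) σ

theorem ihdTr_mltrRep (hΔ : W.Δ ≠ 0) (k : Type) [Field k] [Algebra (ZMod p) k] (σ : GQ) :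
    ihdTr (mltrRep W p k hΔ) σ = algebraMap (ZMod p) k (mltrTr W p hΔ σ) :=
  ihdTr_baseChange k (mltrE W p hΔ) σ

/-- `det ρbar(Frob_ℓ) = ℓ` on `W[p]` for every `ℓ ≠ p` -/
theorem mltr_det_frob_E (hΔ : W.Δ ≠ 0) {ℓ : ℕ} (hℓ : ℓ.Prime) (hℓp : ℓ ≠ p)
    (A : ValuationSubring Qb) (hA : A.LiesOverPrime ℓ) (σ : GQ) (hσ : A.IsFrobeniusAt σ ℓ) :
    LinearMap.det ((mltrE W p hΔ).ρ σ) = ((ℓ : ℕ) : ZMod p) := by
  have hp : p.Prime := Fact.out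
  refine mltr_det_nat W p hΔ σ ℓ (fun μ hμ => ?_)
  exact twp_frobenius_rootOfUnity hA hσ hp.pos
    ((Nat.coprime_primes hp hℓ).mpr (Ne.symm hℓp)) hμ

/-- `det ρbar(Frob_ℓ) = ℓ` for every `ℓ ≠ p` -/
theorem mltr_det_frob (hΔ : W.Δ ≠ 0) (k : Type) [Field k] [Algebra (ZMod p) k] {ℓ : ℕ}
    (hℓ : ℓ.Prime) (hℓp : ℓ ≠ p) (A : ValuationSubring Qb) (hA : A.LiesOverPrime ℓ) (σ : GQ)
    (hσ : A.IsFrobeniusAt σ ℓ) : LinearMap.det ((mltrRep W p k hΔ).ρ σ) = (ℓ : k) := by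
  have h6 : LinearMap.det ((mltrRep W p k hΔ).ρ σ) =
      algebraMap (ZMod p) k (LinearMap.det ((mltrE W p hΔ).ρ σ)) :=
    LinearMap.det_baseChange ((mltrE W p hΔ).ρ σ)
  rw [h6, mltr_det_frob_E W p hΔ hℓ hℓp A hA σ hσ, map_natCast]

/-- the characteristic polynomial of `ρbar(Frob_ℓ)` in terms of the trace, `ℓ ≠ p` -/
theorem mltr_charpoly_frob_tr (hΔ : W.Δ ≠ 0) (k : Type) [Field k] [Algebra (ZMod p) k] {ℓ : ℕ}
    (hℓ : ℓ.Prime) (hℓp : ℓ ≠ p) (A : ValuationSubring Qb) (hA : A.LiesOverPrime ℓ) (σ : GQ)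
    (hσ : A.IsFrobeniusAt σ ℓ) :
    LinearMap.charpoly ((mltrRep W p k hΔ).ρ σ) =
      X ^ 2 - C (algebraMap (ZMod p) k (mltrTr W p hΔ σ)) * X + C ((ℓ : k)) := by
  rw [mltr_charpoly_eq (mltrRep W p k hΔ).finrank_eq, mltr_det_frob W p hΔ k hℓ hℓp A hA σ hσ]
  congr 3
  exact congrArg C (ihdTr_mltrRep W p hΔ k σ)

/-- the trace read off from the characteristic polynomial -/
theorem mltr_trace_of_charpoly {F : Type} [Field F] (ρ : ResidualGaloisRep F) (σ : GQ) (a d : F)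
    (h : LinearMap.charpoly (ρ.ρ σ) = X ^ 2 - C a * X + C d) : ihdTr ρ σ = a := by
  have h1 := mltr_charpoly_eq ρ.finrank_eq (ρ.ρ σ)
  rw [h] at h1
  have h2 := congrArg (fun q : F[X] => q.coeff 1) h1
  simp only [coeff_add, coeff_sub, coeff_X_pow, coeff_C_mul, coeff_X_one, coeff_C] at h2
  norm_num at h2
  exact h2.symm

section Mod

variable {N : ℕ} [NeZero N] {f : CuspForm (CongruenceSubgroup.Gamma0 N) 2}
  (hf : f.IsNormalizedEigenform) (hΔ : W.Δ ≠ 0)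
  {𝔪 : Ideal (integralClosure ℤ ℂ)} (h𝔪 : 𝔪.IsMaximal)
  (hp𝔪 : (p : integralClosure ℤ ℂ) ∈ 𝔪) (T : Finset ℕ)
  (hcong : ∀ ℓ : ℕ, ℓ.Prime → W.IsGoodPrimeFor ℓ → ¬ ℓ ∣ N → ℓ ≠ p → ℓ ∉ T →
    ∃ a : integralClosure ℤ ℂ, (a : ℂ) = ModularFormClass.qCoeff f ℓ ∧
      a - ((W.apOfModel ℓ : ℤ) : integralClosure ℤ ℂ) ∈ 𝔪)

include hf h𝔪 hp𝔪 hcong

/-- the residual representation of `f` over `κ = ℤ̄/𝔪` and its trace function -/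
theorem mltr_exists_rep_f :
    letI : Field (integralClosure ℤ ℂ ⧸ 𝔪) := @Ideal.Quotient.field _ _ 𝔪 h𝔪
    ∃ (_ : Algebra (ZMod p) (integralClosure ℤ ℂ ⧸ 𝔪))
      (ρf : ResidualGaloisRep (integralClosure ℤ ℂ ⧸ 𝔪)),
      ρf.IsAttachedTo f (Ideal.Quotient.mk 𝔪) ∧
      (∀ ℓ : ℕ, ℓ.Prime → ¬ ℓ ∣ N * p → ρf.IsUnramifiedAt ℓ) ∧
      ∀ σ : GQ, ihdTr (mltrRep W p (integralClosure ℤ ℂ ⧸ 𝔪) hΔ) σ = ihdTr ρf σ := by
  classical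
  have hp : p.Prime := Fact.out
  haveI := h𝔪
  letI : Field (integralClosure ℤ ℂ ⧸ 𝔪) := Ideal.Quotient.field 𝔪
  haveI : CharP (integralClosure ℤ ℂ ⧸ 𝔪) p := by
    rw [CharP.charP_iff_prime_eq_zero hp, ← map_natCast (Ideal.Quotient.mk 𝔪)]
    exact Ideal.Quotient.eq_zero_iff_mem.mpr hp𝔪
  letI : Algebra (ZMod p) (integralClosure ℤ ℂ ⧸ 𝔪) := ZMod.algebra _ p
  obtain ⟨ρf, hatt, hunr⟩ := Fermat.Agent.S29.result hf hp (Ideal.Quotient.mk 𝔪)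
  refine ⟨inferInstance, ρf, hatt, hunr, ?_⟩
  -- the big set of primes
  set Sb : Finset ℕ := insert p ((N.primeFactors ∪ W.Δ.natAbs.primeFactors) ∪ T) with hSb
  have hSb1 : ∀ ℓ : ℕ, ℓ.Prime → ℓ ∉ Sb → ℓ ≠ p ∧ ¬ ℓ ∣ N ∧ ¬ (ℓ : ℤ) ∣ W.Δ ∧ ℓ ∉ T := by
    intro ℓ hℓ hℓS
    rw [hSb, Finset.mem_insert, Finset.mem_union, Finset.mem_union, not_or, not_or, not_or] at hℓS
    refine ⟨hℓS.1, fun h => hℓS.2.1.1 (Nat.mem_primeFactors.mpr ⟨hℓ, h, NeZero.ne N⟩), fun h => ?_,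
      hℓS.2.2⟩
    refine hℓS.2.1.2 (Nat.mem_primeFactors.mpr ⟨hℓ, Int.natCast_dvd.1 h, ?_⟩)
    rwa [Ne, Int.natAbs_eq_zero]
  have hne0 : ∀ ℓ : ℕ, ℓ.Prime → ℓ ≠ p → ((ℓ : ℕ) : integralClosure ℤ ℂ ⧸ 𝔪) ≠ 0 := by
    intro ℓ hℓ hℓp h0
    have h1 := (CharP.cast_eq_zero_iff (integralClosure ℤ ℂ ⧸ 𝔪) p ℓ).1 h0
    exact hℓp ((Nat.prime_dvd_prime_iff_eq hp hℓ).1 h1).symm
  intro σ
  refine ihd_tr_eq_of_frob Sb _ _
    (fun ℓ => ((W.apOfModel ℓ : ℤ) : integralClosure ℤ ℂ ⧸ 𝔪)) ?_ ?_ σ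
  · intro ℓ hℓ hℓS A hA τ hτ
    obtain ⟨hℓp, hℓN, hgood, -⟩ := hSb1 ℓ hℓ hℓS
    exact mltr_charpoly_frob W p _ hΔ hℓ hgood hℓp A hA τ hτ
  · intro ℓ hℓ hℓS A hA τ hτ
    obtain ⟨hℓp, hℓN, hgood, hℓT⟩ := hSb1 ℓ hℓ hℓS
    obtain ⟨a, ha, hchar⟩ := hatt ℓ hℓ hℓN (hne0 ℓ hℓ hℓp) A hA τ hτ
    obtain ⟨b, hb, hbm⟩ := hcong ℓ hℓ hgood hℓN hℓp hℓT
    have hab : a = b := Subtype.ext (ha.trans hb.symm)
    have h1 : Ideal.Quotient.mk 𝔪 a = ((W.apOfModel ℓ : ℤ) : integralClosure ℤ ℂ ⧸ 𝔪) := by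
      rw [hab, ← map_intCast (Ideal.Quotient.mk 𝔪), ← sub_eq_zero, ← map_sub]
      exact Ideal.Quotient.eq_zero_iff_mem.mpr hbm
    show LinearMap.charpoly (ρf.ρ τ) = _
    rw [hchar, h1]

/-- **(R1)** the congruence at every prime `ℓ ∤ N p` -/
theorem mltr_cong_all (ℓ : ℕ) (hℓ : ℓ.Prime) (hℓN : ¬ ℓ ∣ N) (hℓp : ℓ ≠ p)
    (A : ValuationSubring Qb) (hA : A.LiesOverPrime ℓ) (σ : GQ) (hσ : A.IsFrobeniusAt σ ℓ) :
    ∃ a : integralClosure ℤ ℂ, (a : ℂ) = ModularFormClass.qCoeff f ℓ ∧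
      ∃ t : ℤ, (t : ZMod p) = mltrTr W p hΔ σ ∧ a - ((t : ℤ) : integralClosure ℤ ℂ) ∈ 𝔪 := by
  classical
  have hp : p.Prime := Fact.out
  haveI := h𝔪
  letI : Field (integralClosure ℤ ℂ ⧸ 𝔪) := Ideal.Quotient.field 𝔪
  obtain ⟨alg, ρf, hatt, -, htr⟩ := mltr_exists_rep_f W p hf hΔ h𝔪 hp𝔪 T hcong
  letI := alg
  haveI : CharP (integralClosure ℤ ℂ ⧸ 𝔪) p := by
    rw [CharP.charP_iff_prime_eq_zero hp, ← map_natCast (Ideal.Quotient.mk 𝔪)]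
    exact Ideal.Quotient.eq_zero_iff_mem.mpr hp𝔪
  have hne0 : ((ℓ : ℕ) : integralClosure ℤ ℂ ⧸ 𝔪) ≠ 0 := by
    intro h0
    have h1 := (CharP.cast_eq_zero_iff (integralClosure ℤ ℂ ⧸ 𝔪) p ℓ).1 h0
    exact hℓp ((Nat.prime_dvd_prime_iff_eq hp hℓ).1 h1).symm
  obtain ⟨a, ha, hchar⟩ := hatt ℓ hℓ hℓN hne0 A hA σ hσ
  refine ⟨a, ha, ((mltrTr W p hΔ σ).val : ℤ), ?_, ?_⟩
  · rw [Int.cast_natCast, ZMod.natCast_zmod_val]
  · have h1 : ihdTr ρf σ = Ideal.Quotient.mk 𝔪 a := mltr_trace_of_charpoly ρf σ _ _ hchar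
    have h2 := htr σ
    rw [ihdTr_mltrRep, h1] at h2
    rw [← Ideal.Quotient.eq_zero_iff_mem, map_sub, map_intCast, ← h2, sub_eq_zero,
      Int.cast_natCast]
    conv_lhs => rw [← ZMod.natCast_zmod_val (mltrTr W p hΔ σ)]
    rw [map_natCast]

include hΔ in
/-- **the congruence at every good prime `ℓ ∤ N p`** from the congruences outside a finite set -/
theorem mltr_cong_good (ℓ : ℕ) (hℓ : ℓ.Prime) (hgood : W.IsGoodPrimeFor ℓ) (hℓN : ¬ ℓ ∣ N)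
    (hℓp : ℓ ≠ p) :
    ∃ a : integralClosure ℤ ℂ, (a : ℂ) = ModularFormClass.qCoeff f ℓ ∧
      a - ((W.apOfModel ℓ : ℤ) : integralClosure ℤ ℂ) ∈ 𝔪 := by
  obtain ⟨P, σ, hP, hσ⟩ := Fermat.Agent.Lib.Helper6.exists_frobenius ℓ hℓ
  obtain ⟨a, ha, t, ht, hat⟩ := mltr_cong_all W p hf hΔ h𝔪 hp𝔪 T hcong ℓ hℓ hℓN hℓp P hP σ hσ
  refine ⟨a, ha, ?_⟩
  have h1 : mltrTr W p hΔ σ = ((W.apOfModel ℓ : ℤ) : ZMod p) :=
    (mltr_trace_det_frob W p hΔ hℓ hgood hℓp P hP σ hσ).1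
  rw [← ht] at h1
  -- `t ≡ a_ℓ(W) mod p`
  have h2 : (p : ℤ) ∣ t - W.apOfModel ℓ := by
    rw [← ZMod.intCast_zmod_eq_zero_iff_dvd, Int.cast_sub, h1, sub_self]
  obtain ⟨c, hc⟩ := h2
  have h3 : a - ((W.apOfModel ℓ : ℤ) : integralClosure ℤ ℂ) =
      (a - ((t : ℤ) : integralClosure ℤ ℂ)) +
        ((p : ℕ) : integralClosure ℤ ℂ) * ((c : ℤ) : integralClosure ℤ ℂ) := by
    have h4 : ((t : ℤ) : integralClosure ℤ ℂ) - ((W.apOfModel ℓ : ℤ) : integralClosure ℤ ℂ) =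
        ((p : ℕ) : integralClosure ℤ ℂ) * ((c : ℤ) : integralClosure ℤ ℂ) := by
      rw [← Int.cast_sub, hc]
      push_cast
      ring
    rw [← h4]
    ring
  rw [h3]
  exact 𝔪.add_mem hat (𝔪.mul_mem_right _ hp𝔪)

/-- `W[p]` (with coefficients in any `k`) is unramified at every prime `ℓ ∤ N p`, if it is
irreducible (`p` odd) -/
theorem mltr_unramified_of_not_dvd (hp2 : p ≠ 2) (hirr : W.ModRepIsIrreducible p)
    (k : Type) [Field k] [Algebra (ZMod p) k] {ℓ : ℕ} (hℓ : ℓ.Prime) (hℓN : ¬ ℓ ∣ N)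
    (hℓp : ℓ ≠ p) : (mltrRep W p k hΔ).IsUnramifiedAt ℓ := by
  classical
  have hp : p.Prime := Fact.out
  haveI := h𝔪
  letI : Field (integralClosure ℤ ℂ ⧸ 𝔪) := Ideal.Quotient.field 𝔪
  obtain ⟨alg, ρf, -, hunr, htr⟩ := mltr_exists_rep_f W p hf hΔ h𝔪 hp𝔪 T hcong
  letI := alg
  have hG : IhdGram (mltrRep W p (integralClosure ℤ ℂ ⧸ 𝔪) hΔ) :=
    ihdGram_of_abs _ (mltr_habs W p (integralClosure ℤ ℂ ⧸ 𝔪) hΔ hp2 hirr)
  obtain ⟨e⟩ := ihd_isEquiv_of_trace hG htr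
  have hℓNp : ¬ ℓ ∣ N * p := by
    rw [Nat.Prime.dvd_mul hℓ]
    rintro (h | h)
    · exact hℓN h
    · exact hℓp ((Nat.prime_dvd_prime_iff_eq hℓ hp).1 h)
  have hu := hunr ℓ hℓ hℓNp
  intro A hA σ hσ
  have h1 : ρf.ρ σ = 1 := hu A hA σ hσ
  have h2 : (mltrRep W p (integralClosure ℤ ℂ ⧸ 𝔪) hΔ).ρ σ = 1 := by
    apply LinearMap.ext
    intro x
    apply e.toLinearEquiv.injective
    rw [e.map_apply, h1]
    rfl
  have h3 : (mltrE W p hΔ).ρ σ = 1 := (ihr_baseChange_ρ_eq_one_iff (mltrE W p hΔ) _ σ).1 h2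
  show ((mltrE W p hΔ).ρ σ).baseChange k = 1
  rw [h3]
  exact LinearMap.baseChange_one _ _

end Mod

/-- **a prime `q ≠ p` where `W[p]` is ramified divides every level of residual modularity** -/
theorem mltr_dvd_level_of_ramified (hΔ : W.Δ ≠ 0) (hp2 : p ≠ 2) (hirr : W.ModRepIsIrreducible p)
    (k : Type) [Field k] [Algebra (ZMod p) k] {N : ℕ} [NeZero N]
    (hres : W.IsResiduallyModularOfLevel p N) {q : ℕ} (hq : q.Prime) (hqp : q ≠ p)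
    (hram : ¬ (mltrRep W p k hΔ).IsUnramifiedAt q) : q ∣ N := by
  obtain ⟨f, 𝔪, hf, h𝔪, hp𝔪, hcong⟩ := hres
  by_contra hqN
  exact hram (mltr_unramified_of_not_dvd W p hf hΔ h𝔪 hp𝔪 ∅
    (fun ℓ hℓ hg hℓN hℓp _ => hcong ℓ hℓ hg hℓN hℓp) hp2 hirr k hq hqN hqp)

end

end Fermat.Agent.MLT

namespace Fermat.Agent.MLT

open CuspForm WeierstrassCurve

/-- **(CongAll) for `W` at `p`**, in the literal shape of helper4's `MltphCongAll W p`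
(`Lib/MLT/AtP/H/LowerCore.lean`): an eigenform congruent to `W` at the good primes outside a finite
set is congruent to `W` at all good primes prime to the level and to `p` -/
theorem mltr_congAll (W : WeierstrassCurve ℤ) (hΔ : W.Δ ≠ 0) {p : ℕ} (hp : p.Prime) :
    ∀ (M : ℕ) [NeZero M] (g : CuspForm (CongruenceSubgroup.Gamma0 M) 2)
      (𝔪 : Ideal (integralClosure ℤ ℂ)),
      g.IsNormalizedEigenform → 𝔪.IsMaximal → (p : integralClosure ℤ ℂ) ∈ 𝔪 → ∀ T : Finset ℕ,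
      (∀ ℓ : ℕ, ℓ.Prime → W.IsGoodPrimeFor ℓ → ¬ ℓ ∣ M → ℓ ≠ p → ℓ ∉ T →
        ∃ a : integralClosure ℤ ℂ, (a : ℂ) = ModularFormClass.qCoeff g ℓ ∧
          a - ((W.apOfModel ℓ : ℤ) : integralClosure ℤ ℂ) ∈ 𝔪) →
      ∀ ℓ : ℕ, ℓ.Prime → W.IsGoodPrimeFor ℓ → ¬ ℓ ∣ M → ℓ ≠ p →
        ∃ a : integralClosure ℤ ℂ, (a : ℂ) = ModularFormClass.qCoeff g ℓ ∧
          a - ((W.apOfModel ℓ : ℤ) : integralClosure ℤ ℂ) ∈ 𝔪 := by
  intro M _ g 𝔪 hg h𝔪 hp𝔪 T hcong ℓ hℓ hgood hℓM hℓp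
  haveI : Fact p.Prime := ⟨hp⟩
  exact mltr_cong_good W p hg hΔ h𝔪 hp𝔪 T hcong ℓ hℓ hgood hℓM hℓp

/-- **the congruence at one more good prime**, in the literal shape of helper3's `MltL1CongAt p`
(`Lib/MLT/L1/MazurEven.lean`) -/
theorem mltr_congAt {p : ℕ} (hp : p.Prime) :
    ∀ (W : WeierstrassCurve ℤ), W.Δ ≠ 0 → W.ModRepIsIrreducible p →
      ∀ (M q : ℕ), 0 < M → q.Prime → q ≠ p → ¬ q ∣ M → W.IsGoodPrimeFor q →
      ∀ (f : CuspForm (CongruenceSubgroup.Gamma0 M) 2) (𝔪 : Ideal (integralClosure ℤ ℂ)),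
        f.IsNormalizedEigenform → 𝔪.IsMaximal → (p : integralClosure ℤ ℂ) ∈ 𝔪 →
        (∀ ℓ : ℕ, ℓ.Prime → W.IsGoodPrimeFor ℓ → ¬ ℓ ∣ M → ℓ ≠ p → ℓ ≠ q →
          ∃ a : integralClosure ℤ ℂ, (a : ℂ) = ModularFormClass.qCoeff f ℓ ∧
            a - ((W.apOfModel ℓ : ℤ) : integralClosure ℤ ℂ) ∈ 𝔪) →
        ∃ a : integralClosure ℤ ℂ, (a : ℂ) = ModularFormClass.qCoeff f q ∧
          a - ((W.apOfModel q : ℤ) : integralClosure ℤ ℂ) ∈ 𝔪 := by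
  intro W hΔ _ M q hM hq hqp hqM hgood f 𝔪 hf h𝔪 hp𝔪 hcong
  haveI : Fact p.Prime := ⟨hp⟩
  haveI : NeZero M := ⟨hM.ne'⟩
  refine mltr_cong_good W p hf hΔ h𝔪 hp𝔪 {q} (fun ℓ hℓ hg hℓM hℓp hℓq => ?_) q hq hgood hqM hqp
  exact hcong ℓ hℓ hg hℓM hℓp (fun h => hℓq (by rw [h]; exact Finset.mem_singleton_self q))

end Fermat.Agent.MLT
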