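/-
MLT (project S59) / stream [R] = Res (lead): **(SL1), part a** — abstract lemmas for the
"no transvection" case of `hTW`.

* `mltr_trace_zero_of_index_two` : an irreducible plane `U` over `K` with a subgroup `H` of index `2`
  stabilising a submodule `V ≠ ⊥, ⊤`: every `σ ∉ H` has trace `0`;
* `mltr_cycloChar_inertia_surjective` : the mod `p` cyclotomic character maps the inertia group of any
  place over `p` ONTO `(ℤ/p)ˣ` (Minkowski + `cycloChar_surjective`).
-/
import Mathlib
import Fermat.Agent.Lib.CFT.S14.LevelOfKernel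
import Fermat.Agent.Lib.Mazur2.Char.Unram

set_option autoImplicit false
set_option linter.unusedSectionVars false
set_option linter.unusedVariables false
set_option linter.style.haveILetI false

namespace Fermat.Agent.MLT

local notation "Qb" => AlgebraicClosure ℚ
local notation "GQ" => (AlgebraicClosure ℚ ≃ₐ[ℚ] AlgebraicClosure ℚ)

section Abstract

variable {Γ : Type*} [Group Γ] {K : Type*} [Field K] {U : Type*} [AddCommGroup U] [Module K U]

/-- **elements outside a subgroup of index `2` with a stable proper submodule have trace `0`** -/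
theorem mltr_trace_zero_of_index_two (hU : Module.finrank K U = 2) (r : Γ →* Module.End K U)
    (hirr : ∀ N : Submodule K U, (∀ σ, ∀ x ∈ N, r σ x ∈ N) → N = ⊥ ∨ N = ⊤)
    (H : Subgroup Γ) (hH : H.index = 2) (V : Submodule K U)
    (hV : ∀ σ ∈ H, ∀ x ∈ V, r σ x ∈ V) (hV0 : V ≠ ⊥) (hV1 : V ≠ ⊤) {g : Γ} (hg : g ∉ H) :
    LinearMap.trace K U (r g) = 0 := by
  classical
  haveI : Module.Finite K U := Module.finite_of_finrank_eq_succ hU
  haveI : H.Normal := Subgroup.normal_of_index_eq_two hH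
  have hmul : ∀ {a b : Γ}, a ∉ H → b ∉ H → a * b ∈ H := fun {a b} ha hb => by
    have := (Subgroup.mul_mem_iff_of_index_two hH (a := a) (b := b))
    exact this.mpr ⟨fun h => absurd h ha, fun h => absurd h hb⟩
  have hgg : g * g ∈ H := hmul hg hg
  have hrinv : ∀ a : Γ, r a⁻¹ * r a = 1 := fun a => by rw [← map_mul, inv_mul_cancel, map_one]
  have hrinv' : ∀ a : Γ, r a * r a⁻¹ = 1 := fun a => by rw [← map_mul, mul_inv_cancel, map_one]
  -- the conjugate submodule
  set V' : Submodule K U := V.map (r g) with hV'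
  have hV'H : ∀ σ ∈ H, ∀ x ∈ V', r σ x ∈ V' := by
    intro σ hσ x hx
    obtain ⟨y, hy, rfl⟩ := hx
    have h1 : g⁻¹ * σ * g ∈ H := by
      have := Subgroup.Normal.conj_mem (inferInstance : H.Normal) σ hσ g⁻¹
      rwa [inv_inv] at this
    refine ⟨r (g⁻¹ * σ * g) y, hV _ h1 y hy, ?_⟩
    rw [← Module.End.mul_apply, ← map_mul, ← mul_assoc, ← mul_assoc, mul_inv_cancel, one_mul,
      map_mul, Module.End.mul_apply]
  have hgV' : ∀ x ∈ V', r g x ∈ V := by
    intro x hx
    obtain ⟨y, hy, rfl⟩ := hx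
    rw [← Module.End.mul_apply, ← map_mul]
    exact hV _ hgg y hy
  -- every element of `Γ` is in `H` or in `g H`
  have hcases : ∀ σ : Γ, σ ∈ H ∨ g⁻¹ * σ ∈ H := by
    intro σ
    by_cases h : σ ∈ H
    · exact Or.inl h
    · right
      have hginv : g⁻¹ ∉ H := fun h' => hg (by simpa using H.inv_mem h')
      exact hmul hginv h
  -- `V ⊓ V'` and `V ⊔ V'` are stable
  have hinf : ∀ σ, ∀ x ∈ V ⊓ V', r σ x ∈ V ⊓ V' := by
    intro σ x hx
    rcases hcases σ with h | h
    · exact ⟨hV σ h x hx.1, hV'H σ h x hx.2⟩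
    · have e : r σ x = r g (r (g⁻¹ * σ) x) := by
        rw [← Module.End.mul_apply, ← map_mul, mul_inv_cancel_left]
      rw [e]
      exact ⟨hgV' _ (hV'H _ h x hx.2), ⟨_, hV _ h x hx.1, rfl⟩⟩
  have hsup : ∀ σ, ∀ x ∈ V ⊔ V', r σ x ∈ V ⊔ V' := by
    intro σ x hx
    obtain ⟨y, hy, z, hz, rfl⟩ := Submodule.mem_sup.mp hx
    rw [map_add]
    rcases hcases σ with h | h
    · exact Submodule.add_mem _ (Submodule.mem_sup_left (hV σ h y hy))
        (Submodule.mem_sup_right (hV'H σ h z hz))
    · have e : ∀ w, r σ w = r g (r (g⁻¹ * σ) w) := fun w => by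
        rw [← Module.End.mul_apply, ← map_mul, mul_inv_cancel_left]
      rw [e y, e z]
      exact Submodule.add_mem _ (Submodule.mem_sup_right ⟨_, hV _ h y hy, rfl⟩)
        (Submodule.mem_sup_left (hgV' _ (hV'H _ h z hz)))
  have hinf0 : V ⊓ V' = ⊥ := by
    rcases hirr _ hinf with h | h
    · exact h
    · exact absurd (top_le_iff.mp (h ▸ inf_le_left)) hV1
  have hsup1 : V ⊔ V' = ⊤ := by
    rcases hirr _ hsup with h | h
    · exact absurd (le_bot_iff.mp (h ▸ le_sup_left)) hV0
    · exact h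
  -- a basis `(v, r g v)`
  obtain ⟨v, hvV, hv0⟩ := Submodule.exists_mem_ne_zero_of_ne_bot hV0
  set w : U := r g v with hw
  have hwV' : w ∈ V' := ⟨v, hvV, rfl⟩
  have hw0 : w ≠ 0 := by
    intro h0
    apply hv0
    have : r g⁻¹ (r g v) = v := by rw [← Module.End.mul_apply, hrinv, Module.End.one_apply]
    rw [← this, ← hw, h0, map_zero]
  have hli : LinearIndependent K ![v, w] := by
    rw [LinearIndependent.pair_iff]
    intro a b hab
    have h1 : a • v ∈ V ⊓ V' := by
      refine ⟨V.smul_mem a hvV, ?_⟩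
      have : a • v = -(b • w) := eq_neg_of_add_eq_zero_left hab
      rw [this]
      exact V'.neg_mem (V'.smul_mem b hwV')
    rw [hinf0, Submodule.mem_bot, smul_eq_zero] at h1
    have ha : a = 0 := h1.resolve_right hv0
    rw [ha, zero_smul, zero_add, smul_eq_zero] at hab
    exact ⟨ha, hab.resolve_right hw0⟩
  let b : Module.Basis (Fin 2) K U := basisOfLinearIndependentOfCardEqFinrank hli (by
    rw [Fintype.card_fin, hU])
  have hb0 : b 0 = v := by
    simp [b, coe_basisOfLinearIndependentOfCardEqFinrank]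
  have hb1 : b 1 = w := by
    simp [b, coe_basisOfLinearIndependentOfCardEqFinrank]
  -- the diagonal entries vanish
  rw [LinearMap.trace_eq_matrix_trace K b, Matrix.trace_fin_two, LinearMap.toMatrix_apply,
    LinearMap.toMatrix_apply, hb0, hb1]
  have e0 : b.repr (r g v) 0 = 0 := by
    have : r g v = b 1 := hb1.symm
    rw [this, Module.Basis.repr_self]
    simp
  have e1 : b.repr (r g w) 1 = 0 := by
    -- `r g w ∈ V`, and its `w`-component lies in `V ⊓ V'`
    have hgw : r g w ∈ V := hgV' w hwV'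
    have hdec : r g w = b.repr (r g w) 0 • v + b.repr (r g w) 1 • w := by
      conv_lhs => rw [← b.sum_repr (r g w)]
      rw [Fin.sum_univ_two, hb0, hb1]
    have h1 : b.repr (r g w) 1 • w ∈ V ⊓ V' := by
      refine ⟨?_, V'.smul_mem _ hwV'⟩
      have : b.repr (r g w) 1 • w = r g w - b.repr (r g w) 0 • v := by
        rw [eq_sub_iff_add_eq, add_comm]
        exact hdec.symm
      rw [this]
      exact V.sub_mem hgw (V.smul_mem _ hvV)
    rw [hinf0, Submodule.mem_bot, smul_eq_zero] at h1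
    exact h1.resolve_right hw0
  rw [e0, e1, add_zero]

end Abstract

section Cyclo

open ExtCitation

variable (p : ℕ) [Fact p.Prime]

/-- **the mod `p` cyclotomic character maps every inertia group at `p` onto `(ℤ/p)ˣ`** -/
theorem mltr_cycloChar_inertia_surjective (P : ValuationSubring Qb) (hP : P.LiesOverPrime p)
    (u : (ZMod p)ˣ) : ∃ σ ∈ P.inertiaSubgroupIn ℚ, cycloChar p σ = u := by
  classical
  have hp : p.Prime := Fact.out
  -- the image of inertia
  set Uim : Subgroup (ZMod p)ˣ := (P.inertiaSubgroupIn ℚ).map (cycloChar p) with hUim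
  set θ : GQ →* (ZMod p)ˣ ⧸ Uim := (QuotientGroup.mk' Uim).comp (cycloChar p) with hθ
  obtain ⟨F, hF, hFfix⟩ := Fermat.Agent.CFT.Bridge.exists_finiteDimensional_cycloChar p
  have hlev : ∃ L : IntermediateField ℚ Qb, FiniteDimensional ℚ L ∧
      ∀ σ : GQ, (∀ a ∈ L, σ a = a) → θ σ = 1 := by
    refine ⟨F, hF, fun σ hσ => ?_⟩
    have h1 : cycloChar p σ = 1 := hFfix σ (by
      rw [IntermediateField.mem_fixingSubgroup_iff]
      exact hσ)
    rw [hθ, MonoidHom.comp_apply, h1, map_one]
  have htriv : ∀ σ : GQ, θ σ = 1 := by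
    refine Fermat.Agent.Mazur2.mz2u_hom_trivial θ hlev p hp ?_ P hP ?_
    · intro q hq hqp A hA σ hσ
      rw [hθ, MonoidHom.comp_apply,
        Fermat.Agent.CFT.Bridge.cycloChar_eq_one_of_mem_inertia p hq hqp A hA σ hσ, map_one]
    · intro σ hσ
      rw [hθ, MonoidHom.comp_apply, QuotientGroup.mk'_apply, QuotientGroup.eq_one_iff]
      exact ⟨σ, hσ, rfl⟩
  obtain ⟨τ, hτ⟩ := Fermat.Agent.CFT.S14.cycloChar_surjective (p := p) u
  have h1 := htriv τ
  rw [hθ, MonoidHom.comp_apply, QuotientGroup.mk'_apply, QuotientGroup.eq_one_iff, hτ] at h1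
  obtain ⟨σ, hσ, hσu⟩ := h1
  exact ⟨σ, hσ, hσu⟩

end Cyclo

end Fermat.Agent.MLT
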