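/-
MLT (project S59) / stream [R] = Res (lead): **(SL1), part b** — abstract lemmas for the
"no transvection" case of `hTW`: linear algebra of a plane and finite nilpotent groups.

* `mltr_sq_of_trace_zero` : `tr g = 0 ⇒ g² = -det g`;
* `mltr_zpow_scalar_or`   : if `c² = s`, every integral power of `c` is `a` or `a • c`;
* `mltr_sq_zero_of_pow_char` : in characteristic `p`, `g ^ p = 1 ⇒ (g - 1)² = 0`;
* `mltr_zpowers_eq_top_of_nilpotent` : a finite nilpotent group generated by the conjugates of one
  element is cyclic;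
* `mltr_card_units_end_three` : `#GL(V) = 48` for a plane over `𝔽_3`;
* `mltr_isPGroup_two` : a subgroup of `GL₂(𝔽_3)` without elements of order `3` is a `2`-group.
-/
import Mathlib
import Fermat.Agent.Lib.MLT.Res.Frob

set_option autoImplicit false
set_option linter.unusedSectionVars false
set_option linter.unusedVariables false
set_option linter.style.haveILetI false

open Polynomial

namespace Fermat.Agent.MLT

section Plane

variable {F : Type*} [Field F] {U : Type*} [AddCommGroup U] [Module F U]

/-- an endomorphism of a plane with trace `0` has scalar square `-det` -/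
theorem mltr_sq_of_trace_zero [Module.Finite F U] (hU : Module.finrank F U = 2)
    (g : Module.End F U) (htr : LinearMap.trace F U g = 0) :
    g * g = (-LinearMap.det g) • (1 : Module.End F U) := by
  have h := LinearMap.aeval_self_charpoly g
  rw [mltr_charpoly_eq hU g, htr] at h
  simp only [map_zero, zero_mul, sub_zero, map_add, map_pow, aeval_X, aeval_C] at h
  rw [Algebra.algebraMap_eq_smul_one, pow_two] at h
  rw [neg_smul]
  exact eq_neg_of_add_eq_zero_left h

/-- if `c * c = s`, every power of `c` (with an inverse `d`) is `a` or `a • c` -/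
theorem mltr_zpow_scalar_or {Γ : Type*} [Group Γ] (r : Γ →* Module.End F U) (τ : Γ) {s : F}
    (hs : r τ * r τ = s • (1 : Module.End F U)) (hs0 : s ≠ 0) (j : ℤ) :
    ∃ a : F, r (τ ^ j) = a • (1 : Module.End F U) ∨ r (τ ^ j) = a • r τ := by
  have hinv : r τ⁻¹ = s⁻¹ • r τ := by
    have h1 : r τ⁻¹ * (r τ * r τ) = r τ := by
      rw [← mul_assoc, ← map_mul, inv_mul_cancel, map_one, one_mul]
    rw [hs, mul_smul_comm, mul_one] at h1
    rw [← h1, smul_smul, inv_mul_cancel₀ hs0, one_smul]
  induction j using Int.induction_on with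
  | zero => exact ⟨1, Or.inl (by rw [zpow_zero, map_one, one_smul])⟩
  | succ n ih =>
    obtain ⟨a, h | h⟩ := ih
    · refine ⟨a, Or.inr ?_⟩
      rw [zpow_add_one, map_mul, h, smul_mul_assoc, one_mul]
    · refine ⟨a * s, Or.inl ?_⟩
      rw [zpow_add_one, map_mul, h, smul_mul_assoc, hs, smul_smul]
  | pred n ih =>
    obtain ⟨a, h | h⟩ := ih
    · refine ⟨a * s⁻¹, Or.inr ?_⟩
      rw [zpow_sub_one, map_mul, h, hinv, smul_mul_assoc, one_mul, smul_smul]
    · refine ⟨a, Or.inl ?_⟩
      rw [zpow_sub_one, map_mul, h, hinv, smul_mul_assoc, mul_smul_comm, hs, smul_smul, smul_smul,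
        mul_assoc, inv_mul_cancel₀ hs0, mul_one]

end Plane

section CharP

variable (p : ℕ) [Fact p.Prime] {U : Type*} [AddCommGroup U] [Module (ZMod p) U]

/-- in characteristic `p`, an endomorphism of a plane with `g ^ p = 1` satisfies `(g - 1)² = 0` -/
theorem mltr_sq_zero_of_pow_char [Module.Finite (ZMod p) U] (hU : Module.finrank (ZMod p) U = 2)
    (g : Module.End (ZMod p) U) (hg : g ^ p = 1) : (g - 1) * (g - 1) = 0 := by
  haveI : Nontrivial U := Module.nontrivial_of_finrank_pos (R := ZMod p) (by omega)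
  haveI : CharP (Module.End (ZMod p) U) p :=
    charP_of_injective_algebraMap (FaithfulSMul.algebraMap_injective (ZMod p) (Module.End (ZMod p) U)) p
  have h1 : (g - 1) ^ p = 0 := by
    rw [sub_pow_char_of_commute p (Commute.one_right g), hg, one_pow, sub_self]
  have hnil : IsNilpotent (g - 1) := ⟨p, h1⟩
  have hcp := hnil.charpoly_eq_X_pow_finrank
  rw [hU] at hcp
  have h := LinearMap.aeval_self_charpoly (g - 1)
  rw [hcp, map_pow, aeval_X, pow_two] at h
  exact h

end CharP

section Nilp

/-- a finite nilpotent group in which every normal subgroup containing `c` is everything is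
generated by `c` -/
theorem mltr_zpowers_eq_top_of_nilpotent {G : Type*} [Group G] [Finite G] [Group.IsNilpotent G]
    (c : G) (h : ∀ M : Subgroup G, M.Normal → c ∈ M → M = ⊤) : Subgroup.zpowers c = ⊤ := by
  by_contra hne
  obtain ⟨M, hM, hle⟩ := (eq_top_or_exists_le_coatom (Subgroup.zpowers c)).resolve_left hne
  have hnorm : M.Normal := Subgroup.NormalizerCondition.normal_of_coatom M
    Group.normalizerCondition_of_isNilpotent hM
  exact hM.1 (h M hnorm (hle (Subgroup.mem_zpowers c)))

end Nilp

section Three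

variable {U : Type*} [AddCommGroup U] [Module (ZMod 3) U]

/-- `#GL(U) = 48` for a plane `U` over `𝔽_3` -/
theorem mltr_card_units_end_three [Module.Finite (ZMod 3) U]
    (hU : Module.finrank (ZMod 3) U = 2) : Nat.card (Module.End (ZMod 3) U)ˣ = 48 := by
  classical
  let b : Module.Basis (Fin 2) (ZMod 3) U := Module.finBasisOfFinrankEq (ZMod 3) U hU
  have e : (Module.End (ZMod 3) U)ˣ ≃* (Matrix (Fin 2) (Fin 2) (ZMod 3))ˣ :=
    Units.mapEquiv (LinearMap.toMatrixAlgEquiv b).toMulEquiv
  rw [Nat.card_congr e.toEquiv]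
  have h := Matrix.card_GL_field (𝔽 := ZMod 3) 2
  rw [ZMod.card 3] at h
  rw [show (Matrix (Fin 2) (Fin 2) (ZMod 3))ˣ = GL (Fin 2) (ZMod 3) from rfl, h]
  simp [Fin.prod_univ_two]

/-- a subgroup of `GL(U)`, `U` a plane over `𝔽_3`, all of whose elements have order prime to `3`
is a `2`-group -/
theorem mltr_isPGroup_two [Module.Finite (ZMod 3) U] (hU : Module.finrank (ZMod 3) U = 2)
    (G : Subgroup (Module.End (ZMod 3) U)ˣ) (hG : ∀ g ∈ G, (orderOf g).Coprime 3) :
    IsPGroup 2 G := by
  classical
  haveI : Finite U := Module.finite_of_finite (ZMod 3)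
  haveI : Finite (Module.End (ZMod 3) U) := DFunLike.finite _
  haveI : Finite (Module.End (ZMod 3) U)ˣ := inferInstance
  have h48 : Nat.card G ∣ 48 := by
    rw [← mltr_card_units_end_three hU]
    exact Subgroup.card_subgroup_dvd_card G
  have h3 : ¬ 3 ∣ Nat.card G := by
    intro h
    haveI : Fact (Nat.Prime 3) := ⟨Nat.prime_three⟩
    obtain ⟨g, hg⟩ := exists_prime_orderOf_dvd_card' (G := G) 3 h
    have h1 := hG g.1 g.2
    rw [Subgroup.orderOf_coe, hg] at h1
    norm_num at h1
  have h16 : Nat.card G ∣ 2 ^ 4 := by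
    have hcop : (Nat.card G).Coprime 3 := (Nat.Prime.coprime_iff_not_dvd Nat.prime_three).mpr h3 |>.symm
    have : Nat.card G ∣ 16 * 3 := by norm_num; exact h48
    exact hcop.dvd_of_dvd_mul_right this
  exact IsPGroup.of_card_dvd_pow h16

end Three

end Fermat.Agent.MLT
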