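/-
MLT (project S59) / stream [R] = Res (lead): **(SL1), part c** — the Galois-theoretic lemmas for the
"no transvection" case of `hTW`, for a general `E : ResidualGaloisRep (ZMod p)`.

* `mltrUnits E : G_ℚ →* GL(E.V)`;
* `mltr_coprime_of_no_transvection` : no transvection in the image ⇒ all orders prime to `p`;
* `mltr_exists_inertia_not_mem` : `E` unramified outside `p`, `H` of index `2` containing `ker E`
  ⇒ some inertia element at `p` is not in `H` (Minkowski);
* `mltr_inertia_cyclic` : tame inertia has cyclic image.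
-/
import Mathlib
import Fermat.Agent.Lib.MLT.Res.SL1a
import Fermat.Agent.Lib.MLT.Res.SL1b
import Fermat.Agent.Lib.TW.Local.TameInertia

set_option autoImplicit false
set_option linter.unusedSectionVars false
set_option linter.unusedVariables false
set_option linter.style.haveILetI false

open Polynomial

namespace Fermat.Agent.MLT

local notation "Qb" => AlgebraicClosure ℚ
local notation "GQ" => (AlgebraicClosure ℚ ≃ₐ[ℚ] AlgebraicClosure ℚ)

noncomputable section

variable {p : ℕ} [Fact p.Prime] (E : ResidualGaloisRep (ZMod p))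

/-- the representation as a homomorphism to the group of units -/
def mltrUnits : GQ →* (Module.End (ZMod p) E.V)ˣ := E.ρ.toHomUnits

lemma mltrUnits_coe (σ : GQ) : ((mltrUnits E σ : (Module.End (ZMod p) E.V)ˣ) :
    Module.End (ZMod p) E.V) = E.ρ σ := rfl

lemma mltrUnits_eq_one_iff (σ : GQ) : mltrUnits E σ = 1 ↔ E.ρ σ = 1 := by
  rw [← Units.val_inj, mltrUnits_coe, Units.val_one]

lemma mltrUnits_eq_iff (σ τ : GQ) : mltrUnits E σ = mltrUnits E τ ↔ E.ρ σ = E.ρ τ := by
  rw [← Units.val_inj, mltrUnits_coe, mltrUnits_coe]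

instance mltr_finite_units : Finite (Module.End (ZMod p) E.V)ˣ := by
  haveI : Finite E.V := Module.finite_of_finite (ZMod p)
  haveI : Finite (Module.End (ZMod p) E.V) := DFunLike.finite _
  infer_instance

/-- no transvection in the image ⇒ every element of the image has order prime to `p` -/
theorem mltr_coprime_of_no_transvection
    (hnt : ∀ σ : GQ, (E.ρ σ - 1) * (E.ρ σ - 1) = 0 → E.ρ σ = 1) (σ : GQ) :
    (orderOf (mltrUnits E σ)).Coprime p := by
  have hp : p.Prime := Fact.out
  by_contra h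
  have hdvd : p ∣ orderOf (mltrUnits E σ) := by
    by_contra h'
    exact h ((Nat.Prime.coprime_iff_not_dvd hp).mpr h').symm
  have hn0 : orderOf (mltrUnits E σ) ≠ 0 := (orderOf_pos (mltrUnits E σ)).ne'
  set m := orderOf (mltrUnits E σ) / p with hm
  have hord : orderOf (mltrUnits E σ ^ m) = p := orderOf_pow_orderOf_div hn0 hdvd
  have hpow : mltrUnits E (σ ^ m) = mltrUnits E σ ^ m := map_pow _ _ _
  rw [← hpow] at hord
  have h1 : mltrUnits E (σ ^ m) ^ p = 1 := by
    have := pow_orderOf_eq_one (mltrUnits E (σ ^ m))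
    rwa [hord] at this
  have h2 : E.ρ (σ ^ m) ^ p = 1 := by
    have := congrArg (fun u : (Module.End (ZMod p) E.V)ˣ => (u : Module.End (ZMod p) E.V)) h1
    simpa only [Units.val_pow_eq_pow_val, mltrUnits_coe, Units.val_one] using this
  have h3 := mltr_sq_zero_of_pow_char p E.finrank_eq (E.ρ (σ ^ m)) h2
  have h4 := hnt (σ ^ m) h3
  have h5 : mltrUnits E (σ ^ m) = 1 := (mltrUnits_eq_one_iff E _).2 h4
  rw [h5, orderOf_one] at hord
  exact hp.one_lt.ne hord

/-- **Minkowski**: `E` unramified outside `p`, `H` of index `2` containing the kernel of `E`: some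
inertia element at `p` is not in `H` -/
theorem mltr_exists_inertia_not_mem
    (hunr : ∀ q : ℕ, q.Prime → q ≠ p → E.IsUnramifiedAt q)
    (P : ValuationSubring Qb) (hP : P.LiesOverPrime p) (H : Subgroup GQ) (hH : H.index = 2)
    (hker : ∀ σ : GQ, E.ρ σ = 1 → σ ∈ H) :
    ∃ τ ∈ P.inertiaSubgroupIn ℚ, τ ∉ H := by
  have hp : p.Prime := Fact.out
  by_contra h
  push Not at h
  haveI : H.Normal := Subgroup.normal_of_index_eq_two hH
  have htriv : ∀ σ : GQ, (QuotientGroup.mk' H) σ = 1 := by
    refine Fermat.Agent.Mazur2.mz2u_hom_trivial (QuotientGroup.mk' H) ?_ p hp ?_ P hP ?_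
    · obtain ⟨L, hL, hfix⟩ := E.factorsThroughFiniteLevel
      refine ⟨L, hL, fun σ hσ => ?_⟩
      rw [QuotientGroup.mk'_apply, QuotientGroup.eq_one_iff]
      exact hker σ (hfix σ hσ)
    · intro q hq hqp A hA σ hσ
      rw [QuotientGroup.mk'_apply, QuotientGroup.eq_one_iff]
      exact hker σ (hunr q hq hqp A hA σ hσ)
    · intro σ hσ
      rw [QuotientGroup.mk'_apply, QuotientGroup.eq_one_iff]
      exact h σ hσ
  have htop : H = ⊤ := by
    rw [eq_top_iff]
    intro σ _
    have := htriv σ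
    rwa [QuotientGroup.mk'_apply, QuotientGroup.eq_one_iff] at this
  rw [htop, Subgroup.index_top] at hH
  exact absurd hH (by norm_num)

/-- **tame inertia has cyclic image** -/
theorem mltr_inertia_cyclic (P : ValuationSubring Qb) (hP : P.LiesOverPrime p)
    (hcop : ∀ σ ∈ P.inertiaSubgroupIn ℚ, (orderOf (mltrUnits E σ)).Coprime p) :
    ∃ τ₀ ∈ P.inertiaSubgroupIn ℚ, ∀ σ ∈ P.inertiaSubgroupIn ℚ, ∃ j : ℤ, E.ρ σ = E.ρ (τ₀ ^ j) := by
  have hp : p.Prime := Fact.out
  obtain ⟨L, hL, hfix⟩ := E.factorsThroughFiniteLevel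
  haveI := hL
  obtain ⟨τ₀, hτ₀, h⟩ := Fermat.Agent.TW.tame_inertia_image_cyclic' hp P hP (mltrUnits E) hcop L (by
    intro σ hσ
    rw [MonoidHom.mem_ker, mltrUnits_eq_one_iff]
    refine hfix σ (fun x hx => ?_)
    exact (IntermediateField.mem_fixingSubgroup_iff L σ).1 hσ x hx)
  refine ⟨τ₀, hτ₀, fun σ hσ => ?_⟩
  obtain ⟨j, hj⟩ := Subgroup.mem_zpowers_iff.1 (h σ hσ)
  refine ⟨j, ?_⟩
  rw [← mltrUnits_eq_iff, map_zpow, hj]

end

end Fermat.Agent.MLT
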