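/-
MLT (project S59) / stream [R] = Res (lead): **(SL1), part d** — `hTW` in the "no transvection"
case, for a general odd irreducible `E : ResidualGaloisRep (ZMod p)` unramified outside `p`.

* `mltr_irr_baseChange`, `mltr_irr_baseChange2` : irreducible + odd ⇒ every base change is irreducible;
* `mltr_sl1_tau` : if `hTW` fails for `(H, V)`, the (cyclic) image of inertia at `p` is generated by
  an element `τ₀ ∉ H` of trace `0`;
* `mltr_sl1_scalar_or` : then every inertia element at `p` acts as `a` or `a • ρ(τ₀)`.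
-/
import Mathlib
import Fermat.Agent.Lib.MLT.Res.SL1c
import Fermat.Agent.Lib.S58.Residual

set_option autoImplicit false
set_option linter.unusedSectionVars false
set_option linter.unusedVariables false
set_option linter.style.haveILetI false

open Polynomial Fermat.Agent.S58
open scoped TensorProduct

namespace Fermat.Agent.MLT

local notation "Qb" => AlgebraicClosure ℚ
local notation "GQ" => (AlgebraicClosure ℚ ≃ₐ[ℚ] AlgebraicClosure ℚ)

noncomputable section

variable {p : ℕ} [Fact p.Prime] (E : ResidualGaloisRep (ZMod p))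

/-- irreducible + odd ⇒ every base change is irreducible -/
theorem mltr_irr_baseChange (hp2 : p ≠ 2) (hirr : E.IsIrreducible) (c : GQ) (hc : c * c = 1)
    (hdc : LinearMap.det (E.ρ c) = -1) (K : Type) [Field K] [Algebra (ZMod p) K] :
    (E.baseChange K).IsIrreducible := by
  intro N hN
  refine s58r_irreducible_of_trace_det (algebraMap (ZMod p) K) E.finrank_eq
    (E.baseChange K).finrank_eq E.ρ (E.baseChange K).ρ ?_ ?_ (mltr_two_ne_zero p hp2) c hc hdc
    hirr N hN
  · intro σ
    show LinearMap.trace K (K ⊗[ZMod p] E.V) ((E.ρ σ).baseChange K) = _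
    rw [LinearMap.trace_baseChange]
  · intro σ
    show LinearMap.det ((E.ρ σ).baseChange K) = _
    rw [LinearMap.det_baseChange]

/-- irreducible + odd ⇒ every double base change is irreducible -/
theorem mltr_irr_baseChange2 (hp2 : p ≠ 2) (hirr : E.IsIrreducible) (c : GQ) (hc : c * c = 1)
    (hdc : LinearMap.det (E.ρ c) = -1) (k : Type) [Field k] [Algebra (ZMod p) k]
    (K : Type) [Field K] [Algebra k K] :
    ((E.baseChange k).baseChange K).IsIrreducible := by
  intro N hN
  refine s58r_irreducible_of_trace_det ((algebraMap k K).comp (algebraMap (ZMod p) k)) E.finrank_eq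
    ((E.baseChange k).baseChange K).finrank_eq E.ρ ((E.baseChange k).baseChange K).ρ ?_ ?_
    (mltr_two_ne_zero p hp2) c hc hdc hirr N hN
  · intro σ
    show LinearMap.trace K (K ⊗[k] (k ⊗[ZMod p] E.V)) (((E.ρ σ).baseChange k).baseChange K) = _
    rw [LinearMap.trace_baseChange, LinearMap.trace_baseChange]
    rfl
  · intro σ
    show LinearMap.det (((E.ρ σ).baseChange k).baseChange K) = _
    rw [LinearMap.det_baseChange, LinearMap.det_baseChange]
    rfl

/-- the trace of the double base change -/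
theorem mltr_trace_baseChange2 (k : Type) [Field k] [Algebra (ZMod p) k]
    (K : Type) [Field K] [Algebra k K] (σ : GQ) :
    LinearMap.trace K ((E.baseChange k).baseChange K).V (((E.baseChange k).baseChange K).ρ σ) =
      algebraMap k K (algebraMap (ZMod p) k (LinearMap.trace (ZMod p) E.V (E.ρ σ))) := by
  show LinearMap.trace K (K ⊗[k] (k ⊗[ZMod p] E.V)) (((E.ρ σ).baseChange k).baseChange K) = _
  rw [LinearMap.trace_baseChange, LinearMap.trace_baseChange]

/-- **if `hTW` fails for `(H, V)`**, in the absence of transvections and of ramification outside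
`p`: the image of inertia at `p` is generated by `ρ(τ₀)` with `τ₀ ∉ H`, `tr ρ(τ₀) = 0`, and every
element outside `H` has trace `0` -/
theorem mltr_sl1_tau (hp2 : p ≠ 2) (hirr : E.IsIrreducible) (c : GQ) (hc : c * c = 1)
    (hdc : LinearMap.det (E.ρ c) = -1)
    (hunr : ∀ q : ℕ, q.Prime → q ≠ p → E.IsUnramifiedAt q)
    (hnt : ∀ σ : GQ, (E.ρ σ - 1) * (E.ρ σ - 1) = 0 → E.ρ σ = 1)
    (P : ValuationSubring Qb) (hP : P.LiesOverPrime p)
    (k : Type) [Field k] [Algebra (ZMod p) k] (K : Type) [Field K] [Algebra k K]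
    (H : Subgroup GQ) (hH : H.index = 2) (V : Submodule K ((E.baseChange k).baseChange K).V)
    (hV : ∀ s ∈ H, ∀ x ∈ V, ((E.baseChange k).baseChange K).ρ s x ∈ V)
    (hV0 : V ≠ ⊥) (hV1 : V ≠ ⊤) :
    ∃ τ₀ ∈ P.inertiaSubgroupIn ℚ, LinearMap.trace (ZMod p) E.V (E.ρ τ₀) = 0 ∧
      ∀ σ ∈ P.inertiaSubgroupIn ℚ, ∃ j : ℤ, E.ρ σ = E.ρ (τ₀ ^ j) := by
  have hp : p.Prime := Fact.out
  -- elements outside `H` have trace `0`
  have htr0 : ∀ g : GQ, g ∉ H → LinearMap.trace (ZMod p) E.V (E.ρ g) = 0 := by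
    intro g hg
    have h1 := mltr_trace_zero_of_index_two ((E.baseChange k).baseChange K).finrank_eq
      ((E.baseChange k).baseChange K).ρ
      (mltr_irr_baseChange2 E hp2 hirr c hc hdc k K) H hH V hV hV0 hV1 hg
    rw [mltr_trace_baseChange2] at h1
    have hinj : Function.Injective ((algebraMap k K).comp (algebraMap (ZMod p) k)) :=
      RingHom.injective _
    exact hinj (by rw [RingHom.comp_apply, h1, map_zero])
  -- the kernel is contained in `H`
  have hker : ∀ σ : GQ, E.ρ σ = 1 → σ ∈ H := by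
    intro σ hσ
    by_contra hσH
    have h1 := htr0 σ hσH
    rw [hσ, LinearMap.trace_one, E.finrank_eq] at h1
    exact mltr_two_ne_zero p hp2 (by exact_mod_cast h1)
  obtain ⟨τ, hτ, hτH⟩ := mltr_exists_inertia_not_mem E hunr P hP H hH hker
  obtain ⟨τ₀, hτ₀, hcyc⟩ := mltr_inertia_cyclic E P hP
    (fun σ _ => mltr_coprime_of_no_transvection E hnt σ)
  have hτ₀H : τ₀ ∉ H := by
    intro hmem
    obtain ⟨j, hj⟩ := hcyc τ hτ
    apply hτH
    have h1 : E.ρ (τ * (τ₀ ^ j)⁻¹) = 1 := by
      rw [map_mul, hj, ← map_mul, mul_inv_cancel, map_one]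
    have h2 := hker _ h1
    have h3 : τ = τ * (τ₀ ^ j)⁻¹ * τ₀ ^ j := by group
    rw [h3]
    exact H.mul_mem h2 (H.zpow_mem hmem j)
  exact ⟨τ₀, hτ₀, htr0 τ₀ hτ₀H, hcyc⟩

/-- with `tr ρ(τ₀) = 0`: every power of `τ₀` acts as `a` or `a • ρ(τ₀)` -/
theorem mltr_sl1_scalar_or (τ₀ : GQ) (htr : LinearMap.trace (ZMod p) E.V (E.ρ τ₀) = 0) (j : ℤ) :
    ∃ a : ZMod p, E.ρ (τ₀ ^ j) = a • (1 : Module.End (ZMod p) E.V) ∨ E.ρ (τ₀ ^ j) = a • E.ρ τ₀ := by
  have hsq := mltr_sq_of_trace_zero E.finrank_eq (E.ρ τ₀) htr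
  have hdet : LinearMap.det (E.ρ τ₀) ≠ 0 := by
    intro h0
    have h1 : LinearMap.det (E.ρ τ₀) * LinearMap.det (E.ρ τ₀⁻¹) = 1 := by
      rw [← map_mul, ← map_mul, mul_inv_cancel, map_one, map_one]
    rw [h0, zero_mul] at h1
    exact zero_ne_one h1
  exact mltr_zpow_scalar_or E.ρ τ₀ hsq (neg_ne_zero.mpr hdet) j

end

end Fermat.Agent.MLT
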