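/-
MLT (project S59) / stream [R] = Res (lead): **(SL1), part e** — `hTW` for an odd irreducible
`E : ResidualGaloisRep (ZMod p)` which is unramified outside `p` and has no transvection in its image:

* `mltr_hTW_of_loc`  : under the local hypothesis (LocP) "some inertia element at `p` is neither a
  scalar nor of trace `0`" (true for `p ≥ 5` in the ordinary and in the supersingular case);
* `mltr_hTW_three_nt` : for `p = 3` without any local hypothesis (the image would be a `2`-group
  generated by the conjugates of one cyclic inertia group, hence cyclic, contradicting the absolute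
  irreducibility).
-/
import Mathlib
import Fermat.Agent.Lib.MLT.Res.SL1d

set_option autoImplicit false
set_option linter.unusedSectionVars false
set_option linter.unusedVariables false
set_option linter.style.haveILetI false

open Polynomial Fermat.Agent.S58
open scoped TensorProduct

namespace Fermat.Agent.MLT

local notation "Qb" => AlgebraicClosure ℚ
local notation "GQ" => (AlgebraicClosure ℚ ≃ₐ[ℚ] AlgebraicClosure ℚ)

noncomputable section

variable {p : ℕ} [Fact p.Prime] (E : ResidualGaloisRep (ZMod p))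

/-- **`hTW` without transvections, under (LocP)** -/
theorem mltr_hTW_of_loc (hp2 : p ≠ 2) (hirr : E.IsIrreducible) (c : GQ) (hc : c * c = 1)
    (hdc : LinearMap.det (E.ρ c) = -1)
    (hunr : ∀ q : ℕ, q.Prime → q ≠ p → E.IsUnramifiedAt q)
    (hnt : ∀ σ : GQ, (E.ρ σ - 1) * (E.ρ σ - 1) = 0 → E.ρ σ = 1)
    (P : ValuationSubring Qb) (hP : P.LiesOverPrime p)
    (hloc : ∃ σ ∈ P.inertiaSubgroupIn ℚ,
      (¬ ∃ a : ZMod p, E.ρ σ = a • (1 : Module.End (ZMod p) E.V)) ∧
        LinearMap.trace (ZMod p) E.V (E.ρ σ) ≠ 0)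
    (k : Type) [Field k] [Algebra (ZMod p) k] :
    ∀ (K : Type) [Field K] [Algebra k K] (G : Subgroup GQ), G.index = 2 →
      ∀ V : Submodule K ((E.baseChange k).baseChange K).V,
        (∀ s ∈ G, ∀ x ∈ V, ((E.baseChange k).baseChange K).ρ s x ∈ V) → V = ⊥ ∨ V = ⊤ := by
  intro K _ _ H hH V hV
  by_contra hcon
  push Not at hcon
  obtain ⟨hV0, hV1⟩ := hcon
  obtain ⟨τ₀, hτ₀, htr, hcyc⟩ :=
    mltr_sl1_tau E hp2 hirr c hc hdc hunr hnt P hP k K H hH V hV hV0 hV1
  obtain ⟨σ, hσ, hns, hntr⟩ := hloc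
  obtain ⟨j, hj⟩ := hcyc σ hσ
  obtain ⟨a, h | h⟩ := mltr_sl1_scalar_or E τ₀ htr j
  · exact hns ⟨a, hj.trans h⟩
  · apply hntr
    rw [hj, h, map_smul, htr, smul_zero]

/-- **`hTW` without transvections for `p = 3`** -/
theorem mltr_hTW_three_nt (hp3 : p = 3) (hirr : E.IsIrreducible) (c : GQ) (hc : c * c = 1)
    (hdc : LinearMap.det (E.ρ c) = -1)
    (hunr : ∀ q : ℕ, q.Prime → q ≠ p → E.IsUnramifiedAt q)
    (hnt : ∀ σ : GQ, (E.ρ σ - 1) * (E.ρ σ - 1) = 0 → E.ρ σ = 1)
    (P : ValuationSubring Qb) (hP : P.LiesOverPrime p)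
    (k : Type) [Field k] [Algebra (ZMod p) k] :
    ∀ (K : Type) [Field K] [Algebra k K] (G : Subgroup GQ), G.index = 2 →
      ∀ V : Submodule K ((E.baseChange k).baseChange K).V,
        (∀ s ∈ G, ∀ x ∈ V, ((E.baseChange k).baseChange K).ρ s x ∈ V) → V = ⊥ ∨ V = ⊤ := by
  subst hp3
  have hp2 : (3 : ℕ) ≠ 2 := by norm_num
  have hp : Nat.Prime 3 := Nat.prime_three
  intro K _ _ H hH V hV
  by_contra hcon
  push Not at hcon
  obtain ⟨hV0, hV1⟩ := hcon
  obtain ⟨τ₀, hτ₀, htr, hcyc⟩ :=
    mltr_sl1_tau E hp2 hirr c hc hdc hunr hnt P hP k K H hH V hV hV0 hV1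
  -- the image is a `2`-group, hence nilpotent
  have hG : ∀ g ∈ (mltrUnits E).range, (orderOf g).Coprime 3 := by
    rintro _ ⟨σ, rfl⟩
    exact mltr_coprime_of_no_transvection E hnt σ
  have h2 := mltr_isPGroup_two E.finrank_eq (mltrUnits E).range hG
  haveI : Fact (Nat.Prime 2) := ⟨Nat.prime_two⟩
  haveI : Finite (mltrUnits E).range := inferInstance
  haveI : Group.IsNilpotent (mltrUnits E).range := h2.isNilpotent
  -- it is generated by the image of `τ₀`
  have hgen : Subgroup.zpowers (⟨mltrUnits E τ₀, τ₀, rfl⟩ : (mltrUnits E).range) = ⊤ := by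
    refine mltr_zpowers_eq_top_of_nilpotent _ (fun M hM hcM => ?_)
    have htriv : ∀ σ : GQ, ((QuotientGroup.mk' M).comp (mltrUnits E).rangeRestrict) σ = 1 := by
      refine Fermat.Agent.Mazur2.mz2u_hom_trivial _ ?_ 3 hp ?_ P hP ?_
      · obtain ⟨L, hL, hfix⟩ := E.factorsThroughFiniteLevel
        refine ⟨L, hL, fun σ hσ => ?_⟩
        have h1 : (mltrUnits E).rangeRestrict σ = 1 :=
          Subtype.ext ((mltrUnits_eq_one_iff E σ).2 (hfix σ hσ))
        rw [MonoidHom.comp_apply, h1, map_one]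
      · intro q hq hq3 A hA σ hσ
        have h1 : (mltrUnits E).rangeRestrict σ = 1 :=
          Subtype.ext ((mltrUnits_eq_one_iff E σ).2 (hunr q hq hq3 A hA σ hσ))
        rw [MonoidHom.comp_apply, h1, map_one]
      · intro σ hσ
        obtain ⟨j, hj⟩ := hcyc σ hσ
        have h1 : (mltrUnits E).rangeRestrict σ =
            (⟨mltrUnits E τ₀, τ₀, rfl⟩ : (mltrUnits E).range) ^ j := by
          apply Subtype.ext
          rw [Subgroup.coe_zpow]
          show mltrUnits E σ = mltrUnits E τ₀ ^ j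
          rw [← map_zpow, mltrUnits_eq_iff]
          exact hj
        rw [MonoidHom.comp_apply, h1, QuotientGroup.mk'_apply, QuotientGroup.eq_one_iff]
        exact M.zpow_mem hcM j
    rw [eq_top_iff]
    intro g _
    obtain ⟨σ, rfl⟩ := MonoidHom.rangeRestrict_surjective (mltrUnits E) g
    have := htriv σ
    rwa [MonoidHom.comp_apply, QuotientGroup.mk'_apply, QuotientGroup.eq_one_iff] at this
  have hall : ∀ σ : GQ, ∃ j : ℤ, E.ρ σ = E.ρ (τ₀ ^ j) := by
    intro σ
    have hmem : (mltrUnits E).rangeRestrict σ ∈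
        Subgroup.zpowers (⟨mltrUnits E τ₀, τ₀, rfl⟩ : (mltrUnits E).range) := by
      rw [hgen]; trivial
    obtain ⟨j, hj⟩ := Subgroup.mem_zpowers_iff.1 hmem
    refine ⟨j, ?_⟩
    have h1 := congrArg Subtype.val hj
    rw [Subgroup.coe_zpow] at h1
    have h2 : mltrUnits E τ₀ ^ j = mltrUnits E σ := h1
    rw [← map_zpow, mltrUnits_eq_iff] at h2
    exact h2.symm
  -- everything commutes with `ρ(τ₀)`
  have hcomm : ∀ σ : GQ, E.ρ σ * E.ρ τ₀ = E.ρ τ₀ * E.ρ σ := by
    intro σ
    obtain ⟨j, hj⟩ := hall σ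
    rw [hj, ← map_mul, ← map_mul, (Commute.zpow_self τ₀ j).eq]
  -- an eigenvector over the algebraic closure
  have hirr' := mltr_irr_baseChange E hp2 hirr c hc hdc (AlgebraicClosure (ZMod 3))
  haveI : Nontrivial (E.baseChange (AlgebraicClosure (ZMod 3))).V :=
    Module.nontrivial_of_finrank_pos (R := AlgebraicClosure (ZMod 3))
      (by rw [(E.baseChange (AlgebraicClosure (ZMod 3))).finrank_eq]; norm_num)
  obtain ⟨μ, hμ⟩ := Module.End.exists_eigenvalue
    (((E.baseChange (AlgebraicClosure (ZMod 3))).ρ τ₀ :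
      Module.End (AlgebraicClosure (ZMod 3)) (E.baseChange (AlgebraicClosure (ZMod 3))).V))
  have hstab : ∀ σ : GQ, ∀ x ∈ Module.End.eigenspace
      ((E.baseChange (AlgebraicClosure (ZMod 3))).ρ τ₀) μ,
      (E.baseChange (AlgebraicClosure (ZMod 3))).ρ σ x ∈ Module.End.eigenspace
        ((E.baseChange (AlgebraicClosure (ZMod 3))).ρ τ₀) μ := by
    intro σ x hx
    rw [Module.End.mem_eigenspace_iff] at hx ⊢
    have h1 : (E.baseChange (AlgebraicClosure (ZMod 3))).ρ τ₀ *
        (E.baseChange (AlgebraicClosure (ZMod 3))).ρ σ =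
        (E.baseChange (AlgebraicClosure (ZMod 3))).ρ σ *
          (E.baseChange (AlgebraicClosure (ZMod 3))).ρ τ₀ := by
      rw [← map_mul, ← map_mul]
      show (E.ρ (τ₀ * σ)).baseChange _ = (E.ρ (σ * τ₀)).baseChange _
      rw [map_mul, map_mul, hcomm σ]
    have h2 := congrArg (fun f : Module.End (AlgebraicClosure (ZMod 3))
      (E.baseChange (AlgebraicClosure (ZMod 3))).V => f x) h1
    simp only [Module.End.mul_apply] at h2
    rw [h2, hx, map_smul]
  rcases hirr' _ hstab with h | h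
  · exact hμ h
  · -- `ρ(τ₀)` is the scalar `μ`
    have hsc : ∀ x, (E.baseChange (AlgebraicClosure (ZMod 3))).ρ τ₀ x = μ • x := by
      intro x
      have hx : x ∈ Module.End.eigenspace ((E.baseChange (AlgebraicClosure (ZMod 3))).ρ τ₀) μ := by
        rw [h]; trivial
      exact Module.End.mem_eigenspace_iff.1 hx
    have heq : (E.baseChange (AlgebraicClosure (ZMod 3))).ρ τ₀ =
        μ • (1 : Module.End (AlgebraicClosure (ZMod 3))
          (E.baseChange (AlgebraicClosure (ZMod 3))).V) := by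
      refine LinearMap.ext (fun x => ?_)
      rw [hsc]
      rfl
    have htrK : LinearMap.trace (AlgebraicClosure (ZMod 3))
        (E.baseChange (AlgebraicClosure (ZMod 3))).V
        ((E.baseChange (AlgebraicClosure (ZMod 3))).ρ τ₀) = 0 := by
      show LinearMap.trace (AlgebraicClosure (ZMod 3)) (AlgebraicClosure (ZMod 3) ⊗[ZMod 3] E.V)
        ((E.ρ τ₀).baseChange (AlgebraicClosure (ZMod 3))) = 0
      rw [LinearMap.trace_baseChange, htr, map_zero]
    rw [heq, map_smul, LinearMap.trace_one,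
      (E.baseChange (AlgebraicClosure (ZMod 3))).finrank_eq, smul_eq_mul] at htrK
    have h2 : ((2 : ℕ) : AlgebraicClosure (ZMod 3)) ≠ 0 := by
      have h3 : ((2 : ℕ) : AlgebraicClosure (ZMod 3)) =
          algebraMap (ZMod 3) (AlgebraicClosure (ZMod 3)) 2 := by
        rw [map_ofNat]; norm_num
      rw [h3]
      intro h0
      have := (algebraMap (ZMod 3) (AlgebraicClosure (ZMod 3))).injective
        (h0.trans (map_zero _).symm)
      exact mltr_two_ne_zero 3 hp2 this
    have hμ0 : μ = 0 := (mul_eq_zero.1 htrK).resolve_right h2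
    -- but `ρ(τ₀)` is invertible
    have hinv : (E.baseChange (AlgebraicClosure (ZMod 3))).ρ τ₀ *
        (E.baseChange (AlgebraicClosure (ZMod 3))).ρ τ₀⁻¹ = 1 := by
      rw [← map_mul, mul_inv_cancel, map_one]
    rw [heq, hμ0, zero_smul, zero_mul] at hinv
    obtain ⟨x, hx⟩ := exists_ne (0 : (E.baseChange (AlgebraicClosure (ZMod 3))).V)
    have := congrArg (fun f : Module.End (AlgebraicClosure (ZMod 3))
      (E.baseChange (AlgebraicClosure (ZMod 3))).V => f x) hinv
    simp only [LinearMap.zero_apply, Module.End.one_apply] at this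
    exact hx this.symm

end

end Fermat.Agent.MLT
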