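/-
MLT (project S59) / stream [R] = Res (lead): **(SL1) = `hTW` for `W[p]`, general semistable `W`**:
the restriction of `k ⊗ W[p]` to every subgroup of index `2` of `G_ℚ` is absolutely irreducible.

* `mltr_hTW_three` : `p = 3`, no further hypothesis;
* `mltr_hTW_of_locP` : `p` odd, under the local hypothesis (LocP) at `p`: some inertia element at
  `p` acts on `W[p]` neither as a scalar nor with trace `0` (only used when `W[p]` is unramified
  outside `p` and its image has order prime to `p`).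
-/
import Mathlib
import Fermat.Agent.Lib.MLT.Res.SL1e
import Fermat.Agent.Lib.MLT.Res.Irr
import Fermat.Agent.Lib.Helper6.FrobeniusExists

set_option autoImplicit false
set_option linter.unusedSectionVars false
set_option linter.unusedVariables false
set_option linter.style.haveILetI false

open Polynomial WeierstrassCurve Fermat.Agent.S58
open scoped TensorProduct

namespace Fermat.Agent.MLT

local notation "Qb" => AlgebraicClosure ℚ
local notation "GQ" => (AlgebraicClosure ℚ ≃ₐ[ℚ] AlgebraicClosure ℚ)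

noncomputable section

variable (W : WeierstrassCurve ℤ) (p : ℕ) [Fact p.Prime]

/-- without transvections, `W[p]` is unramified at the semistable primes `q ≠ p` -/
theorem mltr_unr_of_no_transvection (hΔ : W.Δ ≠ 0) (hp2 : p ≠ 2) (hss : W.IsSemistableModel)
    (hnt : ∀ σ : GQ, ((mltrE W p hΔ).ρ σ - 1) * ((mltrE W p hΔ).ρ σ - 1) = 0 →
      (mltrE W p hΔ).ρ σ = 1) :
    ∀ q : ℕ, q.Prime → q ≠ p → (mltrE W p hΔ).IsUnramifiedAt q := by
  intro q hq hqp A hA σ hσ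
  exact hnt σ (mltr_unipotent_E W p hΔ hp2 hq hqp (hss q hq) A hA σ hσ).2

variable (k : Type) [Field k] [Algebra (ZMod p) k]

/-- **`hTW` under (LocP)** -/
theorem mltr_hTW_of_locP (hΔ : W.Δ ≠ 0) (hp2 : p ≠ 2) (hss : W.IsSemistableModel)
    (hirr : W.ModRepIsIrreducible p)
    (hloc : ∃ P : ValuationSubring Qb, P.LiesOverPrime p ∧ ∃ σ ∈ P.inertiaSubgroupIn ℚ,
      (¬ ∃ a : ZMod p, (mltrE W p hΔ).ρ σ = a • (1 : Module.End (ZMod p) (mltrE W p hΔ).V)) ∧
        LinearMap.trace (ZMod p) (mltrE W p hΔ).V ((mltrE W p hΔ).ρ σ) ≠ 0) :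
    ∀ (K : Type) [Field K] [Algebra k K] (G : Subgroup GQ), G.index = 2 →
      ∀ V : Submodule K ((mltrRep W p k hΔ).baseChange K).V,
        (∀ s ∈ G, ∀ x ∈ V, ((mltrRep W p k hΔ).baseChange K).ρ s x ∈ V) → V = ⊥ ∨ V = ⊤ := by
  by_cases hex : ∃ σ : GQ, (mltrE W p hΔ).ρ σ ≠ 1 ∧
      ((mltrE W p hΔ).ρ σ - 1) * ((mltrE W p hΔ).ρ σ - 1) = 0
  · obtain ⟨σ, hσ1, hσ2⟩ := hex
    exact mltr_hTW_of_transvection W p k hΔ hp2 hirr hσ1 hσ2
  · have hnt : ∀ σ : GQ, ((mltrE W p hΔ).ρ σ - 1) * ((mltrE W p hΔ).ρ σ - 1) = 0 →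
        (mltrE W p hΔ).ρ σ = 1 := by
      intro σ hσ
      by_contra h1
      exact hex ⟨σ, h1, hσ⟩
    obtain ⟨c, hc, hc1⟩ := s58d_exists_involution
    obtain ⟨P, hP, hσ⟩ := hloc
    exact mltr_hTW_of_loc (mltrE W p hΔ) hp2 (mltrE_isIrreducible W p hΔ hirr) c hc
      (mltr_det_involution W p hΔ hp2 c hc hc1)
      (mltr_unr_of_no_transvection W p hΔ hp2 hss hnt) hnt P hP hσ k

/-- **`hTW` for `p = 3`** -/
theorem mltr_hTW_three (hp3 : p = 3) (hΔ : W.Δ ≠ 0) (hss : W.IsSemistableModel)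
    (hirr : W.ModRepIsIrreducible p) :
    ∀ (K : Type) [Field K] [Algebra k K] (G : Subgroup GQ), G.index = 2 →
      ∀ V : Submodule K ((mltrRep W p k hΔ).baseChange K).V,
        (∀ s ∈ G, ∀ x ∈ V, ((mltrRep W p k hΔ).baseChange K).ρ s x ∈ V) → V = ⊥ ∨ V = ⊤ := by
  have hp2 : p ≠ 2 := by rw [hp3]; norm_num
  have hp : p.Prime := Fact.out
  by_cases hex : ∃ σ : GQ, (mltrE W p hΔ).ρ σ ≠ 1 ∧
      ((mltrE W p hΔ).ρ σ - 1) * ((mltrE W p hΔ).ρ σ - 1) = 0
  · obtain ⟨σ, hσ1, hσ2⟩ := hex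
    exact mltr_hTW_of_transvection W p k hΔ hp2 hirr hσ1 hσ2
  · have hnt : ∀ σ : GQ, ((mltrE W p hΔ).ρ σ - 1) * ((mltrE W p hΔ).ρ σ - 1) = 0 →
        (mltrE W p hΔ).ρ σ = 1 := by
      intro σ hσ
      by_contra h1
      exact hex ⟨σ, h1, hσ⟩
    obtain ⟨c, hc, hc1⟩ := s58d_exists_involution
    obtain ⟨P, hP⟩ := Fermat.Agent.Lib.Helper6.exists_valuationSubring_liesOverPrime Qb hp
    exact mltr_hTW_three_nt (mltrE W p hΔ) hp3 (mltrE_isIrreducible W p hΔ hirr) c hc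
      (mltr_det_involution W p hΔ hp2 c hc hc1)
      (mltr_unr_of_no_transvection W p hΔ hp2 hss hnt) hnt P hP k

end

end Fermat.Agent.MLT
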