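/-
MLT (project S59) / stream [R] = Res (lead): **(SL1), part f** — the local hypothesis (LocP)
"some inertia element at `p` acts on `W[p]` neither as a scalar nor with trace `0`":

* `mltr_det_cyclo` : `det ρ(σ) = χ_p(σ)` on `W[p]`;
* `mltr_locP_of_ordinary` : `p ≥ 5` and `W[p]` ordinary at `P` (a proper subgroup `L` modulo which
  the inertia group acts trivially) ⇒ (LocP);
* `mltr_locP_of_transitive` : `p = 5` and the inertia group transitive on `W[p] ∖ 0`
  (supersingular case) ⇒ (LocP).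
-/
import Mathlib
import Fermat.Agent.Lib.MLT.Res.SL1

set_option autoImplicit false
set_option linter.unusedSectionVars false
set_option linter.unusedVariables false
set_option linter.style.haveILetI false

open Polynomial WeierstrassCurve Fermat.Agent.S58 ExtCitation
open scoped TensorProduct

namespace Fermat.Agent.MLT

local notation "Qb" => AlgebraicClosure ℚ
local notation "GQ" => (AlgebraicClosure ℚ ≃ₐ[ℚ] AlgebraicClosure ℚ)

noncomputable section

variable (W : WeierstrassCurve ℤ) (p : ℕ) [Fact p.Prime]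

/-- `det = χ_p` on `W[p]` -/
theorem mltr_det_cyclo (hΔ : W.Δ ≠ 0) (σ : GQ) :
    LinearMap.det ((mltrE W p hΔ).ρ σ) = ((cycloChar p σ : (ZMod p)ˣ) : ZMod p) := by
  rw [coe_cycloChar]
  exact mltr_det_nat W p hΔ σ (cycloExp p σ)
    (fun μ hμ => Fermat.Agent.CFT.S14.apply_eq_pow_cycloExp p σ hμ)

/-- **(LocP) in the ordinary case, `p ≥ 5`** -/
theorem mltr_locP_of_ordinary (hΔ : W.Δ ≠ 0) (hp5 : 5 ≤ p) (P : ValuationSubring Qb)
    (hP : P.LiesOverPrime p) (L : AddSubgroup (S58Tors W p)) (hL : L ≠ ⊤)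
    (hLI : ∀ σ ∈ P.inertiaSubgroupIn ℚ, ∀ x : S58Tors W p, σ • x - x ∈ L) :
    ∃ σ ∈ P.inertiaSubgroupIn ℚ,
      (¬ ∃ a : ZMod p, (mltrE W p hΔ).ρ σ = a • (1 : Module.End (ZMod p) (mltrE W p hΔ).V)) ∧
        LinearMap.trace (ZMod p) (mltrE W p hΔ).V ((mltrE W p hΔ).ρ σ) ≠ 0 := by
  classical
  have hp : p.Prime := Fact.out
  have hcop : Nat.Coprime 2 p := by
    rw [Nat.coprime_comm, Nat.Prime.coprime_iff_not_dvd hp]
    intro h
    have := Nat.le_of_dvd (by norm_num) h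
    omega
  obtain ⟨σ, hσ, hσu⟩ := mltr_cycloChar_inertia_surjective p P hP (ZMod.unitOfCoprime 2 hcop)
  have hdet : LinearMap.det ((mltrE W p hΔ).ρ σ) = 2 := by
    rw [mltr_det_cyclo, hσu, ZMod.coe_unitOfCoprime]
    norm_num
  -- small numbers in `𝔽_p`
  have hne : ∀ n : ℕ, 0 < n → n < 5 → ((n : ℕ) : ZMod p) ≠ 0 := by
    intro n hn0 hn5 h
    rw [ZMod.natCast_eq_zero_iff] at h
    have := Nat.le_of_dvd hn0 h
    omega
  have h1 : (1 : ZMod p) ≠ 0 := one_ne_zero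
  have h3 : (3 : ZMod p) ≠ 0 := by simpa using hne 3 (by norm_num) (by norm_num)
  -- the subspace `L`
  set Ls : Submodule (ZMod p) (S58Tors W p) := AddSubgroup.toZModSubmodule p L with hLs
  have hLs_top : Ls ≠ ⊤ := by
    intro h
    apply hL
    rw [eq_top_iff]
    intro x _
    have : x ∈ Ls := by rw [h]; trivial
    exact this
  have hval : ∀ x : (mltrE W p hΔ).V, (mltrE W p hΔ).ρ σ x - x ∈ Ls := fun x => hLI σ hσ x
  refine ⟨σ, hσ, ?_, ?_⟩
  · -- not a scalar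
    rintro ⟨a, ha⟩
    have ha1 : a = 1 := by
      by_contra hne1
      apply hLs_top
      rw [eq_top_iff]
      intro x _
      have h2 := hval x
      rw [ha, LinearMap.smul_apply, Module.End.one_apply] at h2
      have h2' : (a - 1) • x ∈ Ls := by rwa [sub_smul, one_smul]
      have h2 := h2'
      have h4 := Ls.smul_mem (a - 1)⁻¹ h2
      rwa [smul_smul, inv_mul_cancel₀ (sub_ne_zero.mpr hne1), one_smul] at h4
    rw [ha, ha1, one_smul, map_one] at hdet
    apply h1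
    have : (2 : ZMod p) - 1 = 1 := by norm_num
    rw [← this, ← hdet, sub_self]
  · -- trace `3`
    have hnsurj : ¬ Function.Surjective
        ((mltrE W p hΔ).ρ σ - (1 : Module.End (ZMod p) (mltrE W p hΔ).V)) := by
      intro hs
      apply hLs_top
      rw [eq_top_iff]
      intro x _
      obtain ⟨y, hy⟩ := hs x
      rw [← hy]
      exact hval y
    have hninj : ¬ Function.Injective
        ((mltrE W p hΔ).ρ σ - (1 : Module.End (ZMod p) (mltrE W p hΔ).V)) := fun hi =>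
      hnsurj (LinearMap.injective_iff_surjective.1 hi)
    have hker : LinearMap.ker
        ((mltrE W p hΔ).ρ σ - (1 : Module.End (ZMod p) (mltrE W p hΔ).V)) ≠ ⊥ := fun h =>
      hninj (LinearMap.ker_eq_bot.1 h)
    obtain ⟨v, hv, hv0⟩ := Submodule.exists_mem_ne_zero_of_ne_bot hker
    have hfix : (mltrE W p hΔ).ρ σ v = v := by
      rw [LinearMap.mem_ker, LinearMap.sub_apply, Module.End.one_apply] at hv
      exact sub_eq_zero.1 hv
    have hroot : (LinearMap.charpoly ((mltrE W p hΔ).ρ σ)).IsRoot 1 := by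
      rw [← Module.End.hasEigenvalue_iff_isRoot_charpoly]
      refine Module.End.hasEigenvalue_of_hasEigenvector (x := v) ⟨?_, hv0⟩
      rw [Module.End.mem_eigenspace_iff, hfix, one_smul]
    rw [mltr_charpoly_eq (mltrE W p hΔ).finrank_eq, hdet] at hroot
    simp only [IsRoot.def, eval_add, eval_sub, eval_pow, eval_X, eval_mul, eval_C, one_pow,
      mul_one] at hroot
    intro htr
    rw [htr, sub_zero] at hroot
    apply h3
    have h5 : (3 : ZMod p) = 1 + 2 := by norm_num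
    rw [h5]
    exact hroot

/-- **(LocP) in the supersingular case, `p = 5`**: if the inertia group is transitive on `W[5] ∖ 0` -/
theorem mltr_locP_of_transitive (hΔ : W.Δ ≠ 0) (hp5 : p = 5) (P : ValuationSubring Qb)
    (hP : P.LiesOverPrime p)
    (htrans : ∀ x y : S58Tors W p, x ≠ 0 → y ≠ 0 → ∃ σ ∈ P.inertiaSubgroupIn ℚ, σ • x = y) :
    ∃ σ ∈ P.inertiaSubgroupIn ℚ,
      (¬ ∃ a : ZMod p, (mltrE W p hΔ).ρ σ = a • (1 : Module.End (ZMod p) (mltrE W p hΔ).V)) ∧
        LinearMap.trace (ZMod p) (mltrE W p hΔ).V ((mltrE W p hΔ).ρ σ) ≠ 0 := by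
  classical
  subst hp5
  by_contra hcon
  push Not at hcon
  -- every inertia element has `ρ(σ)^8 = 1`
  have hfour : ∀ a : ZMod 5, a ≠ 0 → a ^ 4 = 1 := by
    intro a ha
    have h := ZMod.pow_card_sub_one_eq_one ha
    exact h
  have hpow : ∀ σ ∈ P.inertiaSubgroupIn ℚ, (mltrE W 5 hΔ).ρ σ ^ 8 = 1 := by
    intro σ hσ
    have hdet : LinearMap.det ((mltrE W 5 hΔ).ρ σ) ≠ 0 := by
      intro h0
      have h1 : LinearMap.det ((mltrE W 5 hΔ).ρ σ) * LinearMap.det ((mltrE W 5 hΔ).ρ σ⁻¹) = 1 := by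
        rw [← map_mul, ← map_mul, mul_inv_cancel, map_one, map_one]
      rw [h0, zero_mul] at h1
      exact zero_ne_one h1
    by_cases hsc : ∃ a : ZMod 5, (mltrE W 5 hΔ).ρ σ = a • (1 : Module.End (ZMod 5) (mltrE W 5 hΔ).V)
    · obtain ⟨a, ha⟩ := hsc
      have ha0 : a ≠ 0 := by
        rintro rfl
        rw [ha, zero_smul, LinearMap.det_zero' (Module.finBasisOfFinrankEq (ZMod 5) _ (mltrE W 5 hΔ).finrank_eq)] at hdet
        exact hdet rfl
      rw [ha, _root_.smul_pow, one_pow, show 8 = 4 * 2 from rfl, pow_mul, hfour a ha0, one_pow, one_smul]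
    · have htr := hcon σ hσ (fun a ha => hsc ⟨a, ha⟩)
      have hsq := mltr_sq_of_trace_zero (mltrE W 5 hΔ).finrank_eq _ htr
      have h8 : (mltrE W 5 hΔ).ρ σ ^ 8 = ((mltrE W 5 hΔ).ρ σ * (mltrE W 5 hΔ).ρ σ) ^ 4 := by
        rw [← pow_two, ← pow_mul]
      rw [h8, hsq, _root_.smul_pow, one_pow, hfour _ (neg_ne_zero.mpr hdet), one_smul]
  -- the image of inertia is a `2`-group
  set D : Subgroup (Module.End (ZMod 5) (mltrE W 5 hΔ).V)ˣ :=
    (P.inertiaSubgroupIn ℚ).map (mltrUnits (mltrE W 5 hΔ)) with hD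
  have hDp : IsPGroup 2 D := by
    rintro ⟨g, σ, hσ, rfl⟩
    refine ⟨3, ?_⟩
    apply Subtype.ext
    apply Units.ext
    have := hpow σ hσ
    show ((mltrUnits (mltrE W 5 hΔ) σ ^ 2 ^ 3 : (Module.End (ZMod 5) (mltrE W 5 hΔ).V)ˣ) :
      Module.End (ZMod 5) (mltrE W 5 hΔ).V) = 1
    rw [Units.val_pow_eq_pow_val, mltrUnits_coe]
    exact this
  -- a nonzero vector
  haveI : Nontrivial (mltrE W 5 hΔ).V :=
    Module.nontrivial_of_finrank_pos (R := ZMod 5) (by rw [(mltrE W 5 hΔ).finrank_eq]; norm_num)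
  obtain ⟨x₀, hx₀⟩ := exists_ne (0 : (mltrE W 5 hΔ).V)
  haveI : Finite (mltrE W 5 hΔ).V := Module.finite_of_finite (ZMod 5)
  haveI : Fact (Nat.Prime 2) := ⟨Nat.prime_two⟩
  obtain ⟨n, hn⟩ := hDp.card_orbit (α := (mltrE W 5 hΔ).V) x₀
  -- the orbit is the set of nonzero vectors
  have horb : MulAction.orbit D x₀ = {y : (mltrE W 5 hΔ).V | y ≠ 0} := by
    ext y
    constructor
    · rintro ⟨⟨g, σ, hσ, rfl⟩, rfl⟩
      show (mltrE W 5 hΔ).ρ σ x₀ ≠ 0
      intro h0
      apply hx₀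
      have h1 : (mltrE W 5 hΔ).ρ σ⁻¹ ((mltrE W 5 hΔ).ρ σ x₀) = x₀ := by
        rw [← Module.End.mul_apply, ← map_mul, inv_mul_cancel, map_one, Module.End.one_apply]
      rw [← h1, h0, map_zero]
    · intro hy
      obtain ⟨σ, hσ, hσy⟩ := htrans x₀ y hx₀ hy
      exact ⟨⟨mltrUnits (mltrE W 5 hΔ) σ, σ, hσ, rfl⟩, hσy⟩
  have hcard : Nat.card (MulAction.orbit D x₀) = 24 := by
    rw [horb]
    have h25 : Nat.card (mltrE W 5 hΔ).V = 25 := by
      exact mltr_card W 5 hΔ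
    have h1 : Nat.card {y : (mltrE W 5 hΔ).V | y ≠ 0} = Nat.card (mltrE W 5 hΔ).V - 1 := by
      have : {y : (mltrE W 5 hΔ).V | y ≠ 0} = ({0} : Set (mltrE W 5 hΔ).V)ᶜ := by
        ext y; simp
      rw [this, Nat.card_coe_set_eq, Set.ncard_compl, Set.ncard_singleton]
    rw [h1, h25]
  rw [hcard] at hn
  -- `24` is not a power of `2`
  have h3 : 3 ∣ 2 ^ n := by rw [← hn]; norm_num
  have := (Nat.Prime.dvd_of_dvd_pow Nat.prime_three h3)
  norm_num at this

variable (k : Type) [Field k] [Algebra (ZMod p) k]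

/-- **the local hypothesis at `p` for `hTW`** (only needed for `p = 5`): for some place over `p`,
either `W[p]` is ordinary (a proper subgroup modulo which inertia acts trivially) or the inertia
group is transitive on `W[p] ∖ 0` (supersingular case, helper5's (SL2)) -/
def MltrLocalAtP : Prop :=
  ∃ P : ValuationSubring Qb, P.LiesOverPrime p ∧
    ((∃ L : AddSubgroup (S58Tors W p), L ≠ ⊤ ∧
        ∀ σ ∈ P.inertiaSubgroupIn ℚ, ∀ x : S58Tors W p, σ • x - x ∈ L) ∨
      (∀ x y : S58Tors W p, x ≠ 0 → y ≠ 0 → ∃ σ ∈ P.inertiaSubgroupIn ℚ, σ • x = y))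

/-- **`hTW` for `p = 5`** under `MltrLocalAtP` -/
theorem mltr_hTW_five (hp5 : p = 5) (hΔ : W.Δ ≠ 0) (hss : W.IsSemistableModel)
    (hirr : W.ModRepIsIrreducible p) (hloc : MltrLocalAtP W p) :
    ∀ (K : Type) [Field K] [Algebra k K] (G : Subgroup GQ), G.index = 2 →
      ∀ V : Submodule K ((mltrRep W p k hΔ).baseChange K).V,
        (∀ s ∈ G, ∀ x ∈ V, ((mltrRep W p k hΔ).baseChange K).ρ s x ∈ V) → V = ⊥ ∨ V = ⊤ := by
  have hp2 : p ≠ 2 := by rw [hp5]; norm_num
  obtain ⟨P, hP, h | h⟩ := hloc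
  · obtain ⟨L, hL, hLI⟩ := h
    exact mltr_hTW_of_locP W p k hΔ hp2 hss hirr
      ⟨P, hP, mltr_locP_of_ordinary W p hΔ (by rw [hp5]) P hP L hL hLI⟩
  · exact mltr_hTW_of_locP W p k hΔ hp2 hss hirr
      ⟨P, hP, mltr_locP_of_transitive W p hΔ hp5 P hP h⟩

/-- **`hTW` for `p ∈ {3, 5}`** (for `p = 5` under `MltrLocalAtP`) -/
theorem mltr_hTW (hp : p = 3 ∨ p = 5) (hΔ : W.Δ ≠ 0) (hss : W.IsSemistableModel)
    (hirr : W.ModRepIsIrreducible p) (hloc : p = 5 → MltrLocalAtP W p) :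
    ∀ (K : Type) [Field K] [Algebra k K] (G : Subgroup GQ), G.index = 2 →
      ∀ V : Submodule K ((mltrRep W p k hΔ).baseChange K).V,
        (∀ s ∈ G, ∀ x ∈ V, ((mltrRep W p k hΔ).baseChange K).ρ s x ∈ V) → V = ⊥ ∨ V = ⊤ := by
  rcases hp with hp3 | hp5
  · exact mltr_hTW_three W p k hp3 hΔ hss hirr
  · exact mltr_hTW_five W p k hp5 hΔ hss hirr (hloc hp5)

end

end Fermat.Agent.MLT
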